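import Fermat.Agent.LT.Sp.Def
import Fermat.Agent.LT.H3Dist

set_option autoImplicit false

/-!
# Elements of `GL₂(F)` with bounded denominators modulo scalars

Two-cusp lemma and finiteness (proper discontinuity) for `F` totally complex.
-/

namespace Fermat.Agent.LT.Sp

open NumberField NumberField.InfinitePlace Matrix
open Fermat.Agent.LT

variable {F : Type*} [Field F] [NumberField F]

theorem BddDen.ne_zero {N : ℕ} {g : GL (Fin 2) F} (h : BddDen N g) : N ≠ 0 := by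
  rintro rfl
  obtain ⟨a, -, -, -, h4⟩ := h
  norm_num at h4

theorem BddDen.mono {N N' : ℕ} {g : GL (Fin 2) F} (h : BddDen N g) (hd : N ∣ N') (h0 : N' ≠ 0) :
    BddDen N' g := by
  obtain ⟨a, ha, h2, h3, h4⟩ := h
  obtain ⟨k, rfl⟩ := hd
  have hle : N ≤ N * k := Nat.le_mul_of_pos_right _ (Nat.pos_of_ne_zero (by
    rintro rfl; exact h0 (by simp)))
  have hle' : (N : ℚ) ≤ ((N * k : ℕ) : ℚ) := by exact_mod_cast hle
  refine ⟨a, ha, fun i j => ?_, h3.trans hle', h4.trans ?_⟩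
  · have e : (((N * k : ℕ) : F)) * (a * g i j) = (k : F) * ((N : F) * (a * g i j)) := by
      push_cast; ring
    rw [e]
    have hk : IsIntegral ℤ (k : F) := by
      simpa using isIntegral_algebraMap (R := ℤ) (A := F) (x := (k : ℤ))
    exact hk.mul (h2 i j)
  · exact mul_le_mul_of_nonneg_right hle' (abs_nonneg _)

theorem BddDen.inv {N : ℕ} {g : GL (Fin 2) F} (h : BddDen N g) : BddDen N g⁻¹ := by
  obtain ⟨a, ha, h2, h3, h4⟩ := h
  set D := (g : Matrix (Fin 2) (Fin 2) F).det with hD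
  have hD0 : D ≠ 0 := g.det_ne_zero
  have hinv : ((g⁻¹ : GL (Fin 2) F) : Matrix (Fin 2) (Fin 2) F) = D⁻¹ • !![g 1 1, -g 0 1; -g 1 0, g 0 0] := by
    rw [Matrix.coe_units_inv, Matrix.inv_def, Matrix.adjugate_fin_two, Ring.inverse_eq_inv']
  have hdet : ((g⁻¹ : GL (Fin 2) F) : Matrix (Fin 2) (Fin 2) F).det = D⁻¹ := by
    rw [Matrix.coe_units_inv, Matrix.det_nonsing_inv, Ring.inverse_eq_inv']
  have e : (a * D) ^ 2 * ((g⁻¹ : GL (Fin 2) F) : Matrix (Fin 2) (Fin 2) F).det = a ^ 2 * D := by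
    rw [hdet]; field_simp
  refine ⟨a * D, mul_ne_zero ha hD0, fun i j => ?_, by rw [e]; exact h3, by rw [e]; exact h4⟩
  have key : (N : F) * (a * D * (g⁻¹ : GL (Fin 2) F) i j) =
      (N : F) * (a * (!![g 1 1, -g 0 1; -g 1 0, g 0 0] : Matrix (Fin 2) (Fin 2) F) i j) := by
    rw [hinv]
    simp only [Matrix.smul_apply, smul_eq_mul]
    field_simp
  rw [key]
  fin_cases i <;> fin_cases j
  · exact h2 1 1
  · have := (h2 0 1).neg
    simpa using this
  · have := (h2 1 0).neg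
    simpa using this
  · exact h2 0 0

theorem BddDen.smul {N : ℕ} {g g' : GL (Fin 2) F} {c : F} (hc : c ≠ 0)
    (h : BddDen N g) (hg : ∀ i j, g' i j = c * g i j) : BddDen N g' := by
  obtain ⟨a, ha, h2, h3, h4⟩ := h
  have e : (a * c⁻¹) ^ 2 * (g' : Matrix (Fin 2) (Fin 2) F).det =
      a ^ 2 * (g : Matrix (Fin 2) (Fin 2) F).det := by
    rw [Matrix.det_fin_two, Matrix.det_fin_two]
    simp only [hg]
    field_simp
  refine ⟨a * c⁻¹, mul_ne_zero ha (inv_ne_zero hc), fun i j => ?_, by rw [e]; exact h3,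
    by rw [e]; exact h4⟩
  have := h2 i j
  rw [hg, show (N : F) * (a * c⁻¹ * (c * g i j)) = (N : F) * (a * g i j) by field_simp]
  exact this

/-- the product of the absolute values -/
theorem prod_sq_eq_norm [IsTotallyComplex F] (x : F) :
    ∏ w : InfinitePlace F, ‖w.embedding x‖ ^ 2 = ((|Algebra.norm ℚ x| : ℚ) : ℝ) := by
  have h := InfinitePlace.prod_eq_abs_norm x
  have h1 : ∀ w : InfinitePlace F, w x ^ w.mult = ‖w.embedding x‖ ^ 2 := by
    intro w
    have hw : IsComplex w := IsTotallyComplex.isComplex w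
    rw [norm_embedding_eq, mult_isComplex ⟨w, hw⟩]
  simp_rw [h1] at h
  rw [h]

theorem one_le_prod_of_isIntegral [IsTotallyComplex F] {x : F} (hx : IsIntegral ℤ x)
    (h0 : x ≠ 0) : 1 ≤ ∏ w : InfinitePlace F, ‖w.embedding x‖ ^ 2 := by
  rw [prod_sq_eq_norm]
  have h1 : IsIntegral ℤ (Algebra.norm ℚ x) := Algebra.isIntegral_norm ℚ hx
  obtain ⟨n, hn⟩ := IsIntegrallyClosed.isIntegral_iff.mp h1
  have h2 : Algebra.norm ℚ x ≠ 0 := Algebra.norm_ne_zero_iff.mpr h0
  have hn0 : n ≠ 0 := by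
    rintro rfl
    apply h2
    rw [← hn]; simp
  have h3 : (1 : ℚ) ≤ |Algebra.norm ℚ x| := by
    rw [← hn]
    have : (1 : ℤ) ≤ |n| := Int.one_le_abs hn0
    calc (1 : ℚ) ≤ ((|n| : ℤ) : ℚ) := by exact_mod_cast this
      _ = |algebraMap ℤ ℚ n| := by simp
  exact_mod_cast h3

/-- the number of infinite places -/
noncomputable abbrev rF (F : Type*) [Field F] [NumberField F] : ℕ := Fintype.card (InfinitePlace F)

omit [NumberField F] in
/-- elementary estimate: `y(g p) y(p) |c|² ≤ |det g|` -/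
theorem y_smul_mul_y_le (g : GL (Fin 2) F) (p : HF F) (w : InfinitePlace F) :
    ((g • p) w).y * (p w).y * ‖w.embedding (g 1 0)‖ ^ 2 ≤
      ‖w.embedding (g : Matrix (Fin 2) (Fin 2) F).det‖ := by
  rw [smul_HF_apply, H3.y_smul, det_embGL, embGL_apply, embGL_apply]
  have hy := (p w).pos
  have hq : 0 < (p w).q (w.embedding (g 1 0)) (w.embedding (g 1 1)) := by
    have := H3.row_ne (embGL w g) 1
    rw [embGL_apply, embGL_apply] at this
    exact (p w).q_pos this
  have h1 : (p w).y * ‖w.embedding (g 1 0)‖ ^ 2 ≤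
      (p w).q (w.embedding (g 1 0)) (w.embedding (g 1 1)) := by
    rw [H3.q, le_div_iff₀ hy, H3.den]
    nlinarith [sq_nonneg ‖w.embedding (g 1 0) * (p w).z + w.embedding (g 1 1)‖]
  rw [div_mul_eq_mul_div, div_mul_eq_mul_div, div_le_iff₀ hq, mul_assoc]
  exact mul_le_mul_of_nonneg_left h1 (norm_nonneg _)

/-- **Two-cusp lemma**: an element with bounded denominators moving a point of height bounded below
near a point which is very high lies in the Borel subgroup. -/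
theorem two_cusp [IsTotallyComplex F] {N : ℕ} {g : GL (Fin 2) F} (hg : BddDen N g)
    {p p' : HF F} {R R' : ℝ} (hR : 1 ≤ R) (hp' : ∀ w, R⁻¹ ≤ (p' w).y)
    (hcd : ∀ w, H3.cd (p w) ((g • p') w) ≤ R')
    (hT : (2 * R' * R * N ^ 2) ^ rF F * N < ∏ w, (p w).y) : g 1 0 = 0 := by
  classical
  by_contra hc
  have hN := hg.ne_zero
  obtain ⟨a, ha, h2, h3, h4⟩ := hg
  have hN1 : (1 : ℝ) ≤ N := by exact_mod_cast Nat.one_le_iff_ne_zero.mpr hN
  have hR'1 : 1 ≤ R' := by
    obtain ⟨w⟩ : Nonempty (InfinitePlace F) := inferInstance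
    exact (H3.one_le_cd _ _).trans (hcd w)
  have hR0 : 0 < R := by linarith
  set D := (g : Matrix (Fin 2) (Fin 2) F).det with hD
  -- pointwise
  have hpt : ∀ w, (p w).y * ‖w.embedding (N * (a * g 1 0))‖ ^ 2 ≤
      (2 * R' * R * N ^ 2) * ‖w.embedding (a ^ 2 * D)‖ := by
    intro w
    have e1 := y_smul_mul_y_le g p' w
    have e2 : (p w).y ≤ 2 * R' * ((g • p') w).y := by
      refine (H3.y_le ((g • p') w) (p w)).trans ?_
      have h5 : H3.cd ((g • p') w) (p w) ≤ R' := by rw [H3.cd_symm]; exact hcd w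
      have h6 := ((g • p') w).pos
      gcongr
    have e3 : 1 ≤ R * (p' w).y := by
      have := hp' w
      rwa [inv_le_iff_one_le_mul₀' hR0] at this
    have e4 : (p w).y * ‖w.embedding (g 1 0)‖ ^ 2 ≤
        2 * R' * R * ‖w.embedding D‖ := by
      have h7 : 0 ≤ ‖w.embedding (g 1 0)‖ ^ 2 := by positivity
      have h8 := ((g • p') w).pos
      calc (p w).y * ‖w.embedding (g 1 0)‖ ^ 2 ≤
          (2 * R' * ((g • p') w).y) * ‖w.embedding (g 1 0)‖ ^ 2 :=
            mul_le_mul_of_nonneg_right e2 h7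
        _ = (2 * R' * ((g • p') w).y) * ‖w.embedding (g 1 0)‖ ^ 2 * 1 := by ring
        _ ≤ (2 * R' * ((g • p') w).y) * ‖w.embedding (g 1 0)‖ ^ 2 * (R * (p' w).y) := by
            gcongr
        _ = 2 * R' * R * (((g • p') w).y * (p' w).y * ‖w.embedding (g 1 0)‖ ^ 2) := by ring
        _ ≤ 2 * R' * R * ‖w.embedding D‖ := by gcongr
    have e5 : w.embedding (N * (a * g 1 0)) = N * (w.embedding a * w.embedding (g 1 0)) := by
      rw [map_mul, map_mul, map_natCast]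
    rw [e5, map_mul, map_pow, norm_mul, norm_mul, norm_mul, norm_pow, Complex.norm_natCast]
    have h9 : 0 ≤ (N : ℝ) ^ 2 * ‖w.embedding a‖ ^ 2 := by positivity
    calc (p w).y * (N * (‖w.embedding a‖ * ‖w.embedding (g 1 0)‖)) ^ 2
        = ((N : ℝ) ^ 2 * ‖w.embedding a‖ ^ 2) * ((p w).y * ‖w.embedding (g 1 0)‖ ^ 2) := by ring
      _ ≤ ((N : ℝ) ^ 2 * ‖w.embedding a‖ ^ 2) * (2 * R' * R * ‖w.embedding D‖) := by gcongr
      _ = _ := by ring
  have hprod : (∏ w, (p w).y) * ∏ w : InfinitePlace F, ‖w.embedding (N * (a * g 1 0))‖ ^ 2 ≤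
      (2 * R' * R * N ^ 2) ^ rF F * ∏ w : InfinitePlace F, ‖w.embedding (a ^ 2 * D)‖ := by
    rw [← Finset.prod_mul_distrib]
    calc _ ≤ ∏ w : InfinitePlace F, ((2 * R' * R * N ^ 2) * ‖w.embedding (a ^ 2 * D)‖) :=
          Finset.prod_le_prod (fun w _ => mul_nonneg (p w).pos.le (by positivity))
            fun w _ => hpt w
      _ = _ := by rw [Finset.prod_mul_distrib, Finset.prod_const, Finset.card_univ]
  have hint : 1 ≤ ∏ w : InfinitePlace F, ‖w.embedding (N * (a * g 1 0))‖ ^ 2 :=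
    one_le_prod_of_isIntegral (h2 1 0) (mul_ne_zero (by exact_mod_cast hN) (mul_ne_zero ha hc))
  have hdet : ∏ w : InfinitePlace F, ‖w.embedding (a ^ 2 * D)‖ ≤ N := by
    have h5 : (∏ w : InfinitePlace F, ‖w.embedding (a ^ 2 * D)‖) ^ 2 ≤ (N : ℝ) ^ 2 := by
      rw [← Finset.prod_pow, prod_sq_eq_norm]
      calc ((|Algebra.norm ℚ (a ^ 2 * D)| : ℚ) : ℝ) ≤ ((N : ℚ) : ℝ) := by exact_mod_cast h3
        _ = N := by simp
        _ ≤ (N : ℝ) ^ 2 := by nlinarith
    exact le_of_sq_le_sq h5 (by positivity)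
  have hyy : 0 ≤ ∏ w, (p w).y := Finset.prod_nonneg fun w _ => (p w).pos.le
  have : ∏ w, (p w).y ≤ (2 * R' * R * N ^ 2) ^ rF F * N := by
    calc ∏ w, (p w).y = (∏ w, (p w).y) * 1 := by ring
      _ ≤ (∏ w, (p w).y) * ∏ w : InfinitePlace F, ‖w.embedding (N * (a * g 1 0))‖ ^ 2 := by gcongr
      _ ≤ (2 * R' * R * N ^ 2) ^ rF F * ∏ w : InfinitePlace F, ‖w.embedding (a ^ 2 * D)‖ := hprod
      _ ≤ _ := by gcongr
  linarith

end Fermat.Agent.LT.Sp
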