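import Fermat.Agent.LT.Sp.Def
import Fermat.Agent.LT.Sp.Den

set_option autoImplicit false

/-!
# Matrices with bounded denominators modulo scalars
-/

namespace Fermat.Agent.LT.Sp

open Matrix NumberField MeasureTheory
open scoped MatrixGroups Pointwise

variable {F : Type*} [Field F] [NumberField F]

theorem BddDen.mul {N M : ℕ} {g h : GL (Fin 2) F} (hg : BddDen N g) (hh : BddDen M h) :
    BddDen (N * M) (g * h) := by
  obtain ⟨a, ha, h1, h2, h3⟩ := hg
  obtain ⟨b, hb, k1, k2, k3⟩ := hh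
  have e : (a * b) ^ 2 * ((g * h : GL (Fin 2) F) : Matrix (Fin 2) (Fin 2) F).det =
      (a ^ 2 * (g : Matrix (Fin 2) (Fin 2) F).det) *
        (b ^ 2 * (h : Matrix (Fin 2) (Fin 2) F).det) := by
    rw [Units.val_mul, Matrix.det_mul]
    ring
  refine ⟨a * b, mul_ne_zero ha hb, fun i j => ?_, ?_, ?_⟩
  · have : ((N * M : ℕ) : F) * (a * b * (g * h : GL (Fin 2) F) i j) =
        ((N : F) * (a * g i 0)) * ((M : F) * (b * h 0 j)) +
        ((N : F) * (a * g i 1)) * ((M : F) * (b * h 1 j)) := by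
      rw [Units.val_mul, Matrix.mul_apply, Fin.sum_univ_two]
      push_cast
      ring
    rw [this]
    exact ((h1 i 0).mul (k1 0 j)).add ((h1 i 1).mul (k1 1 j))
  · rw [e, map_mul, abs_mul]
    push_cast
    exact mul_le_mul h2 k2 (abs_nonneg _) (Nat.cast_nonneg _)
  · rw [e, map_mul, abs_mul]
    push_cast
    calc (1 : ℚ) = 1 * 1 := (one_mul 1).symm
      _ ≤ (N * |Algebra.norm ℚ (a ^ 2 * (g : Matrix (Fin 2) (Fin 2) F).det)|) *
          (M * |Algebra.norm ℚ (b ^ 2 * (h : Matrix (Fin 2) (Fin 2) F).det)|) :=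
        mul_le_mul h3 k3 zero_le_one (zero_le_one.trans h3)
      _ = _ := by ring

theorem exists_den (x : F) : ∃ n : ℕ, n ≠ 0 ∧ ∀ k : ℕ, n ∣ k → IsIntegral ℤ ((k : F) * x) := by
  have hx : IsAlgebraic ℤ x := (IsFractionRing.isAlgebraic_iff ℤ ℚ F).mpr
    (Algebra.IsAlgebraic.isAlgebraic x)
  obtain ⟨y, hy0, hy⟩ := hx.exists_integral_multiple
  refine ⟨y.natAbs, Int.natAbs_ne_zero.mpr hy0, fun k hk => ?_⟩
  obtain ⟨c, hc⟩ := Int.natCast_dvd_natCast.mpr hk
  have h1 : ((k : ℤ) : F) * x = (c : F) * ((y.natAbs : ℤ) : F) * x := by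
    rw [hc]
    push_cast
    ring
  have h2 : (k : F) * x = (c : F) * (((y.natAbs : ℤ) : F) * x) := by
    have := h1
    push_cast at this ⊢
    rw [this]
    ring
  rw [h2]
  refine (isIntegral_intCast c).mul ?_
  rcases Int.natAbs_eq y with h | h
  · rw [← h]
    rw [zsmul_eq_mul] at hy
    exact hy
  · have : (((y.natAbs : ℕ) : ℤ) : F) = -(y : F) := by
      rw [eq_neg_iff_add_eq_zero]
      rw [h]
      push_cast
      simp
    rw [this, neg_mul]
    rw [zsmul_eq_mul] at hy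
    exact hy.neg

theorem exists_bddDen (g : GL (Fin 2) F) : ∃ N : ℕ, N ≠ 0 ∧ BddDen N g := by
  choose n hn0 hn using fun p : Fin 2 × Fin 2 => exists_den ((g : GL (Fin 2) F) p.1 p.2)
  set q : ℚ := |Algebra.norm ℚ ((1 : F) ^ 2 * (g : Matrix (Fin 2) (Fin 2) F).det)| with hq
  have hq0 : 0 < q := by
    rw [hq, abs_pos, Ne, Algebra.norm_eq_zero_iff, one_pow, one_mul]
    exact g.det_ne_zero
  obtain ⟨b, hb⟩ := exists_nat_ge (max q q⁻¹)
  have hb0 : b ≠ 0 := by
    rintro rfl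
    have := hq0.trans_le ((le_max_left _ _).trans hb)
    simp at this
  have hP : ∏ p, n p ≠ 0 := Finset.prod_ne_zero_iff.mpr fun p _ => hn0 p
  have hle : (b : ℚ) ≤ ((b * ∏ p, n p : ℕ) : ℚ) := by
    exact_mod_cast Nat.le_mul_of_pos_right b (Nat.pos_of_ne_zero hP)
  refine ⟨b * ∏ p, n p, mul_ne_zero hb0 hP, 1, one_ne_zero, fun i j => ?_, ?_, ?_⟩
  · rw [one_mul]
    exact hn (i, j) _ ((Finset.dvd_prod_of_mem n (Finset.mem_univ (i, j))).trans
      (dvd_mul_left _ _))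
  · exact ((le_max_left _ _).trans hb).trans hle
  · have h1 : 1 ≤ (b : ℚ) * q := by
      rw [← inv_le_iff_one_le_mul₀ hq0]
      exact (le_max_right _ _).trans hb
    exact h1.trans (mul_le_mul_of_nonneg_right hle hq0.le)

/-- **balanced representatives** -/
theorem exists_balanced [IsTotallyComplex F] (N : ℕ) : ∃ C : ℝ, 1 ≤ C ∧
    ∀ g : GL (Fin 2) F, BddDen N g → ∃ (a : F) (m : Matrix (Fin 2) (Fin 2) (𝓞 F)), a ≠ 0 ∧
      (∀ i j, a * g i j = m i j) ∧ ∀ w : InfinitePlace F,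
        C⁻¹ ≤ ‖w.embedding ((m.det : 𝓞 F) : F)‖ ∧ ‖w.embedding ((m.det : 𝓞 F) : F)‖ ≤ C := by
  classical
  obtain ⟨R, hR, hbal⟩ := exists_unit_balance F
  set n := Module.finrank ℚ F with hn
  set B : ℝ := (N : ℝ) ^ (2 * n + 1) + 1 with hB
  have hN0 : (0 : ℝ) ≤ N := Nat.cast_nonneg _
  have hB1 : 1 ≤ B := by rw [hB]; have : 0 ≤ (N : ℝ) ^ (2 * n + 1) := by positivity
                         linarith
  refine ⟨R * B, one_le_mul_of_one_le_of_one_le hR hB1, fun g hg => ?_⟩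
  obtain ⟨a, ha, h1, h2, h3⟩ := hg
  have hN : (N : F) ≠ 0 := by
    intro h0
    have : N = 0 := by exact_mod_cast h0
    rw [this] at h3
    norm_num at h3
  obtain ⟨m, hm⟩ : ∃ m : Matrix (Fin 2) (Fin 2) (𝓞 F),
      ∀ i j, ((m i j : 𝓞 F) : F) = (N : F) * (a * g i j) :=
    ⟨Matrix.of fun i j => ⟨(N : F) * (a * g i j), h1 i j⟩, fun i j => rfl⟩
  have hdet : ((m.det : 𝓞 F) : F) = (N : F) ^ 2 * (a ^ 2 * (g : Matrix (Fin 2) (Fin 2) F).det) := by
    rw [Matrix.det_fin_two, Matrix.det_fin_two]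
    push_cast
    simp only [hm]
    ring
  have hdet0 : ((m.det : 𝓞 F) : F) ≠ 0 := by
    rw [hdet]
    exact mul_ne_zero (pow_ne_zero _ hN) (mul_ne_zero (pow_ne_zero _ ha) g.det_ne_zero)
  have hy : ∀ w : InfinitePlace F, 0 < ‖w.embedding ((m.det : 𝓞 F) : F)‖ := fun w =>
    norm_pos_iff.mpr (by rwa [Ne, map_eq_zero])
  obtain ⟨u, hu⟩ := hbal _ hy
  have hu0 : ((u : 𝓞 F) : F) ≠ 0 := RingOfIntegers.coe_ne_zero_iff.mpr (Units.ne_zero u)
  refine ⟨((u : 𝓞 F) : F) * ((N : F) * a), (u : 𝓞 F) • m, mul_ne_zero hu0 (mul_ne_zero hN ha),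
    fun i j => ?_, ?_⟩
  · rw [Matrix.smul_apply, smul_eq_mul]
    push_cast
    linear_combination (-((u : 𝓞 F) : F)) * hm i j
  set A : InfinitePlace F → ℝ := fun w =>
    ‖w.embedding ((u : 𝓞 F) : F)‖ ^ 2 * ‖w.embedding ((m.det : 𝓞 F) : F)‖ with hA
  have hA0 : ∀ w, 0 < A w := fun w => mul_pos (pow_pos (norm_pos_iff.mpr (by rwa [Ne, map_eq_zero])) 2) (hy w)
  have hAe : ∀ w : InfinitePlace F,
      ‖w.embedding ((((u : 𝓞 F) • m).det : 𝓞 F) : F)‖ = A w := by
    intro w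
    rw [Matrix.det_smul, Fintype.card_fin]
    push_cast
    rw [map_mul, map_pow, norm_mul, norm_pow]
  have hprod : ∏ w, A w ^ 2 = |(Algebra.norm ℚ ((m.det : 𝓞 F) : F) : ℝ)| := by
    have h := InfinitePlace.prod_eq_abs_norm ((((u : 𝓞 F) • m).det : 𝓞 F) : F)
    have e1 : ∀ w : InfinitePlace F, w ((((u : 𝓞 F) • m).det : 𝓞 F) : F) ^ w.mult = A w ^ 2 := by
      intro w
      have hw : InfinitePlace.IsComplex w := IsTotallyComplex.isComplex w
      rw [← InfinitePlace.norm_embedding_eq, InfinitePlace.mult_isComplex ⟨w, hw⟩, hAe]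
    simp_rw [e1] at h
    have hunit : |(Algebra.norm ℚ ((u : 𝓞 F) : F) : ℚ)| = 1 :=
      NumberField.Units.norm F u
    have h5 : |Algebra.norm ℚ ((((u : 𝓞 F) • m).det : 𝓞 F) : F)| =
        |Algebra.norm ℚ ((m.det : 𝓞 F) : F)| := by
      rw [Matrix.det_smul, Fintype.card_fin]
      push_cast
      rw [map_mul, map_pow, abs_mul, abs_pow, hunit, one_pow, one_mul]
    rw [h, h5]
    push_cast
    rfl
  have hn1 : (1 : ℝ) ≤ ∏ w, A w ^ 2 ∧ ∏ w, A w ^ 2 ≤ B := by
    rw [hprod]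
    constructor
    · have h6 : (Algebra.norm ℚ ((m.det : 𝓞 F) : F)) = ((Algebra.norm ℤ m.det : ℤ) : ℚ) :=
        (Algebra.coe_norm_int m.det).symm
      rw [h6]
      push_cast
      have h7 : Algebra.norm ℤ m.det ≠ 0 := by
        rw [Algebra.norm_ne_zero_iff]
        exact fun h => hdet0 (by rw [h]; rfl)
      exact_mod_cast Int.one_le_abs h7
    · have h8 : |Algebra.norm ℚ ((m.det : 𝓞 F) : F)| ≤ (N : ℚ) ^ (2 * n + 1) := by
        rw [hdet, map_mul, abs_mul, map_pow]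
        have h9 : Algebra.norm ℚ (N : F) = (N : ℚ) ^ n := by
          have := Algebra.norm_algebraMap (R := ℚ) (S := F) (N : ℚ)
          rwa [map_natCast] at this
        rw [h9, abs_pow, abs_pow, Nat.abs_cast, ← pow_mul, mul_comm n 2,
          pow_succ (N : ℚ) (2 * n)]
        exact mul_le_mul_of_nonneg_left h2 (pow_nonneg (Nat.cast_nonneg N) _)
      have h10 : |(Algebra.norm ℚ ((m.det : 𝓞 F) : F) : ℝ)| ≤ (N : ℝ) ^ (2 * n + 1) := by
        exact_mod_cast h8
      rw [hB]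
      linarith
  have hcomp : ∀ w w', A w ≤ R * A w' := hu
  have hR0 : 0 < R := one_pos.trans_le hR
  have hex1 : ∃ w₁, 1 ≤ A w₁ := by
    by_contra hcon
    push Not at hcon
    have : ∏ w, A w ^ 2 < ∏ _w : InfinitePlace F, (1 : ℝ) :=
      Finset.prod_lt_prod_of_nonempty (fun w _ => pow_pos (hA0 w) 2)
        (fun w _ => pow_lt_one₀ (hA0 w).le (hcon w) two_ne_zero) Finset.univ_nonempty
    rw [Finset.prod_const_one] at this
    linarith [hn1.1]
  have hex2 : ∃ w₀, A w₀ ≤ B := by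
    by_contra hcon
    push Not at hcon
    have h11 : ∏ _w : InfinitePlace F, B < ∏ w, A w ^ 2 :=
      Finset.prod_lt_prod_of_nonempty (fun w _ => one_pos.trans_le hB1)
        (fun w _ => (hcon w).trans_le (le_self_pow₀ (hB1.trans (hcon w).le) two_ne_zero))
        Finset.univ_nonempty
    rw [Finset.prod_const] at h11
    have h12 : B ≤ B ^ (Finset.univ : Finset (InfinitePlace F)).card :=
      le_self_pow₀ hB1 (Finset.card_ne_zero.mpr Finset.univ_nonempty)
    linarith [hn1.2]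
  obtain ⟨w₁, hw₁⟩ := hex1
  obtain ⟨w₀, hw₀⟩ := hex2
  intro w
  rw [hAe]
  constructor
  · have h13 : (R * B)⁻¹ ≤ R⁻¹ := by
      rw [mul_inv]
      exact mul_le_of_le_one_right (inv_nonneg.mpr hR0.le) (inv_le_one_of_one_le₀ hB1)
    refine h13.trans ?_
    rw [inv_le_iff_one_le_mul₀ hR0, mul_comm]
    exact hw₁.trans (hcomp w₁ w)
  · exact (hcomp w w₀).trans (mul_le_mul_of_nonneg_left hw₀ hR0.le)

/-- modulo scalars and a principal congruence subgroup there are only finitely many matrices with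
bounded denominators -/
theorem exists_finset_mod [IsTotallyComplex F] (N M : ℕ) (hM : M ≠ 0) :
    ∃ Φ : Finset (GL (Fin 2) F), (∀ φ ∈ Φ, BddDen N φ) ∧ ∀ g : GL (Fin 2) F, BddDen N g →
      ∃ φ ∈ Φ, ∃ (u : Fˣ) (γ : SpecialLinearGroup (Fin 2) (𝓞 F)),
        (∀ i j, (M : 𝓞 F) ∣ γ i j - (1 : Matrix (Fin 2) (Fin 2) (𝓞 F)) i j) ∧
        g = GeneralLinearGroup.scalar (Fin 2) u * φ * slO F γ := by
  classical
  obtain ⟨C, hC1, hC⟩ := exists_balanced (F := F) N
  choose! a m ha hm hw using hC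
  have hfin : {x : 𝓞 F | ∀ w : InfinitePlace F, ‖w.embedding (x : F)‖ ≤ C}.Finite := by
    have h := Embeddings.finite_of_norm_le F ℂ C
    refine (h.preimage (f := fun x : 𝓞 F => (x : F))
      (RingOfIntegers.coe_injective.injOn)).subset fun x hx => ?_
    refine ⟨x.isIntegral_coe, fun φ => ?_⟩
    have h1 := hx (InfinitePlace.mk φ)
    rwa [InfinitePlace.norm_embedding_eq, InfinitePlace.apply] at h1
  set S : Finset (𝓞 F) := hfin.toFinset with hS
  set K : 𝓞 F := (M : 𝓞 F) * ∏ x ∈ S.erase 0, x with hK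
  have hK0 : K ≠ 0 := by
    refine mul_ne_zero (by exact_mod_cast hM) (Finset.prod_ne_zero_iff.mpr fun x hx => ?_)
    exact (Finset.mem_erase.mp hx).1
  have hfq : Finite (𝓞 F ⧸ Ideal.span {K}) := by
    refine Ideal.finiteQuotientOfFreeOfNeBot _ ?_
    rwa [Ne, Ideal.span_singleton_eq_bot]
  let f : GL (Fin 2) F → 𝓞 F × (Fin 2 → Fin 2 → 𝓞 F ⧸ Ideal.span {K}) := fun g =>
    ((m g).det, fun i j => Ideal.Quotient.mk _ (m g i j))
  have hfA : (f '' {g | BddDen N g}).Finite := by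
    refine ((hfin.prod (Set.finite_univ
      (α := Fin 2 → Fin 2 → 𝓞 F ⧸ Ideal.span {K})))).subset ?_
    rintro _ ⟨g, hg, rfl⟩
    exact ⟨fun w => (hw g hg w).2, Set.mem_univ _⟩
  let r : 𝓞 F × (Fin 2 → Fin 2 → 𝓞 F ⧸ Ideal.span {K}) → GL (Fin 2) F := fun t =>
    if h : ∃ g, BddDen N g ∧ f g = t then h.choose else 1
  have hr : ∀ g, BddDen N g → BddDen N (r (f g)) ∧ f (r (f g)) = f g := by
    intro g hg
    have h : ∃ g', BddDen N g' ∧ f g' = f g := ⟨g, hg, rfl⟩
    have e : r (f g) = h.choose := dif_pos h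
    rw [e]
    exact h.choose_spec
  refine ⟨(hfA.toFinset.image r).filter (BddDen N), fun φ hφ => (Finset.mem_filter.mp hφ).2,
    fun g hg => ?_⟩
  obtain ⟨hφ, hfφ⟩ := hr g hg
  set φ := r (f g) with hφdef
  refine ⟨φ, Finset.mem_filter.mpr ⟨Finset.mem_image_of_mem _
    (hfA.mem_toFinset.mpr ⟨g, hg, rfl⟩), hφ⟩, ?_⟩
  have hdet : (m φ).det = (m g).det := congrArg Prod.fst hfφ
  have hdvd : ∀ i j, K ∣ m g i j - m φ i j := by
    intro i j
    have h1 := congrFun (congrFun (congrArg Prod.snd hfφ) i) j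
    rw [← Ideal.mem_span_singleton, ← Ideal.Quotient.eq]
    exact h1.symm
  have hδ0 : (m g).det ≠ 0 := by
    intro h0
    have h1 := (hw g hg (Classical.arbitrary _)).1
    rw [h0] at h1
    simp only [map_zero, norm_zero] at h1
    exact absurd h1 (not_le.mpr (inv_pos.mpr (one_pos.trans_le hC1)))
  have hδS : (m g).det ∈ S := hfin.mem_toFinset.mpr fun w => (hw g hg w).2
  have hdvd2 : ∀ i j, (M : 𝓞 F) * (m g).det ∣ m g i j - m φ i j := fun i j =>
    (mul_dvd_mul_left _ (Finset.dvd_prod_of_mem (fun x : 𝓞 F => x)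
      (Finset.mem_erase.mpr ⟨hδ0, hδS⟩))).trans (hdvd i j)
  choose E hE using hdvd2
  let D : Matrix (Fin 2) (Fin 2) (𝓞 F) := Matrix.of E
  have hDE : ∀ i j, D i j = E i j := fun _ _ => rfl
  have hD : m g = m φ + ((M : 𝓞 F) * (m g).det) • D := by
    refine Matrix.ext fun i j => ?_
    rw [Matrix.add_apply, Matrix.smul_apply, smul_eq_mul, hDE]
    linear_combination hE i j
  let γ : Matrix (Fin 2) (Fin 2) (𝓞 F) := 1 + (M : 𝓞 F) • ((m φ).adjugate * D)
  have hmul : m φ * γ = m g := by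
    rw [Matrix.mul_add, Matrix.mul_one, Matrix.mul_smul, ← Matrix.mul_assoc,
      Matrix.mul_adjugate, hdet, Matrix.smul_mul, Matrix.one_mul, smul_smul]
    exact hD.symm
  have hγ : γ.det = 1 := by
    have h1 := congrArg Matrix.det hmul
    rw [Matrix.det_mul, hdet] at h1
    exact mul_left_cancel₀ hδ0 (h1.trans (mul_one _).symm)
  have ha1 := ha g hg
  have ha2 := ha φ hφ
  refine ⟨Units.mk0 ((a g)⁻¹ * a φ) (mul_ne_zero (inv_ne_zero ha1) ha2), ⟨γ, hγ⟩,
    fun i j => ⟨((m φ).adjugate * D) i j, ?_⟩, ?_⟩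
  · change (1 + (M : 𝓞 F) • ((m φ).adjugate * D)) i j - _ = _
    rw [Matrix.add_apply, Matrix.smul_apply, smul_eq_mul]
    ring
  · apply Units.ext
    ext i j
    have h1 := hm g hg i j
    have h2 : ((m g i j : 𝓞 F) : F) = (m φ i 0 : F) * (γ 0 j : F) + (m φ i 1 : F) * (γ 1 j : F) := by
      rw [← hmul, Matrix.mul_apply, Fin.sum_univ_two]
      push_cast
      rfl
    have h3 : (GeneralLinearGroup.scalar (Fin 2) (Units.mk0 ((a g)⁻¹ * a φ)
        (mul_ne_zero (inv_ne_zero ha1) ha2)) * φ * slO F ⟨γ, hγ⟩ : GL (Fin 2) F) i j =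
        ((a g)⁻¹ * a φ) * (φ i 0 * (γ 0 j : F) + φ i 1 * (γ 1 j : F)) := by
      rw [Units.val_mul, Units.val_mul, GeneralLinearGroup.coe_scalar, Matrix.mul_apply,
        Fin.sum_univ_two, Matrix.scalar_apply, Matrix.diagonal_mul, Matrix.diagonal_mul]
      simp only [Units.val_mk0]
      change (a g)⁻¹ * a φ * φ i 0 * (γ 0 j : F) + (a g)⁻¹ * a φ * φ i 1 * (γ 1 j : F) = _
      ring
    have h4 := hm φ hφ i 0
    have h5 := hm φ hφ i 1
    rw [h3, mul_assoc, mul_add, ← mul_assoc (a φ), ← mul_assoc (a φ), h4, h5, ← h2, ← h1,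
      inv_mul_cancel_left₀ ha1]

section FinPart

variable {D : Type*} [MulAction (GL (Fin 2) F) D] [FinPart F D]

/-- elements moving one finite set into another have bounded denominators -/
theorem exists_bddDen_of_finset (D₁ D₂ : Finset D) : ∃ N : ℕ, N ≠ 0 ∧
    ∀ g : GL (Fin 2) F, (∃ d ∈ D₁, g • d ∈ D₂) → BddDen N g := by
  classical
  have h1 : ∀ p : D × D, ∃ N : ℕ, N ≠ 0 ∧ ∀ g : GL (Fin 2) F, g • p.1 = p.2 → BddDen N g := by
    rintro ⟨d, d'⟩
    by_cases h : ∃ g₀ : GL (Fin 2) F, g₀ • d = d'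
    · obtain ⟨g₀, hg₀⟩ := h
      obtain ⟨N₀, hN₀, hb₀⟩ := exists_bddDen g₀
      obtain ⟨N₁, hb₁⟩ := FinPart.exists_bdd (F := F) d
      have hN₁ : N₁ ≠ 0 := by
        rintro rfl
        obtain ⟨a, ha, -, -, h3⟩ := hb₁ 1 (one_smul _ _)
        norm_num at h3
      refine ⟨N₀ * N₁, mul_ne_zero hN₀ hN₁, fun g hg => ?_⟩
      have h2 : (g₀⁻¹ * g) • d = d := by
        rw [mul_smul, hg, ← hg₀, inv_smul_smul]
      have := hb₀.mul (hb₁ _ h2)
      rwa [mul_inv_cancel_left] at this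
    · exact ⟨1, one_ne_zero, fun g hg => absurd ⟨g, hg⟩ h⟩
  choose N hN0 hN using h1
  have hP : ∏ p ∈ D₁ ×ˢ D₂, N p ≠ 0 := Finset.prod_ne_zero_iff.mpr fun p _ => hN0 p
  refine ⟨∏ p ∈ D₁ ×ˢ D₂, N p, hP, ?_⟩
  rintro g ⟨d, hd, hgd⟩
  exact (hN (d, g • d) g rfl).mono
    (Finset.dvd_prod_of_mem N (Finset.mk_mem_product hd hgd)) hP

/-- a common level for a finite set of points -/
theorem exists_level_of_finset (D₁ : Finset D) : ∃ N : ℕ, N ≠ 0 ∧
    ∀ g : SpecialLinearGroup (Fin 2) (𝓞 F),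
      (∀ i j, (N : 𝓞 F) ∣ g i j - (1 : Matrix (Fin 2) (Fin 2) (𝓞 F)) i j) →
      ∀ d ∈ D₁, slO F g • d = d := by
  choose N hN0 hN using fun d : D => FinPart.exists_level (F := F) d
  refine ⟨∏ d ∈ D₁, N d, Finset.prod_ne_zero_iff.mpr fun d _ => hN0 d, fun g hg d hd => ?_⟩
  refine hN d g fun i j => dvd_trans ?_ (hg i j)
  exact Nat.cast_dvd_cast (Finset.dvd_prod_of_mem N hd)

/-- **finiteness**: the images of a point under the elements moving one finite set into another -/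
theorem finite_transport [IsTotallyComplex F] (D₁ D₂ : Finset D) (e : D) :
    {e' : D | ∃ g : GL (Fin 2) F, (∃ d ∈ D₁, g • d ∈ D₂) ∧ g • e = e'}.Finite := by
  classical
  obtain ⟨N, hN0, hN⟩ := exists_bddDen_of_finset (F := F) D₁ D₂
  obtain ⟨M, hM0, hM⟩ := FinPart.exists_level (F := F) e
  obtain ⟨Φ, -, hΦ⟩ := exists_finset_mod (F := F) N M hM0
  refine (Φ.image (fun φ => φ • e)).finite_toSet.subset ?_
  rintro e' ⟨g, hg, rfl⟩
  obtain ⟨φ, hφ, u, γ, hγ, rfl⟩ := hΦ g (hN g hg)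
  rw [Finset.coe_image]
  refine ⟨φ, hφ, ?_⟩
  change φ • e = _
  rw [mul_smul, mul_smul, hM γ hγ, FinPart.scalar_smul (F := F)]

/-- orbits of stabilisers are finite -/
theorem finite_stab_orbit [IsTotallyComplex F] (d e : D) :
    {e' : D | ∃ g : GL (Fin 2) F, g • d = d ∧ g • e = e'}.Finite := by
  refine (finite_transport (F := F) {d} {d} e).subset ?_
  rintro e' ⟨g, hg, rfl⟩
  exact ⟨g, ⟨d, Finset.mem_singleton_self _, Finset.mem_singleton.mpr hg⟩, rfl⟩

variable (F)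

theorem countable_field : Countable F :=
  Countable.of_equiv _ (Module.finBasis ℚ F).equivFun.symm.toEquiv

theorem countable_GL : Countable (GL (Fin 2) F) := by
  have := countable_field F
  have : Countable (Matrix (Fin 2) (Fin 2) F) :=
    inferInstanceAs (Countable (Fin 2 → Fin 2 → F))
  exact Function.Injective.countable (f := fun g : GL (Fin 2) F => (g : Matrix (Fin 2) (Fin 2) F))
    Units.val_injective

instance countable_PGL : Countable PGL(2, F) := by
  have := countable_GL F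
  exact ProjGenLinGroup.mk_surjective.countable

variable (D)

include F in
theorem FinPart.countable : Countable D := by
  classical
  have := countable_GL F
  obtain ⟨D₀, hD₀⟩ := FinPart.exists_reps (F := F) (D := D)
  have hs : Function.Surjective (fun p : GL (Fin 2) F × D₀ => p.1 • (p.2 : D)) := by
    intro d
    obtain ⟨g, hg⟩ := hD₀ d
    exact ⟨(g⁻¹, ⟨g • d, hg⟩), inv_smul_smul g d⟩
  exact hs.countable

end FinPart

section Lattice

variable {D : Type*} [MulAction (GL (Fin 2) F) D] [FinPart F D]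

/-- the lattice of translations fixing a point of `D` -/
def trans (F : Type*) [Field F] {D : Type*} [MulAction (GL (Fin 2) F) D] (d : D) :
    AddSubgroup F where
  carrier := {t | nMat t • d = d}
  zero_mem' := by
    have : nMat (0 : F) = 1 := by
      apply Units.ext
      rw [nMat_coe]
      exact Matrix.one_fin_two.symm
    change nMat (0 : F) • d = d
    rw [this, one_smul]
  add_mem' := by
    intro s t hs ht
    have : nMat (s + t) = nMat s * nMat t := by
      apply Units.ext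
      rw [Units.val_mul, nMat_coe, nMat_coe, nMat_coe]
      simp [add_comm]
    change nMat (s + t) • d = d
    rw [this, mul_smul]
    rw [show nMat t • d = d from ht, show nMat s • d = d from hs]
  neg_mem' := by
    intro t ht
    have : nMat (-t) = (nMat t)⁻¹ := by
      rw [eq_inv_iff_mul_eq_one]
      apply Units.ext
      rw [Units.val_mul, nMat_coe, nMat_coe, Units.val_one]
      simp [Matrix.one_fin_two]
    change nMat (-t) • d = d
    rw [this, inv_smul_eq_iff]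
    exact (show nMat t • d = d from ht).symm

omit [NumberField F] [FinPart F D] in
theorem mem_trans {d : D} {t : F} : t ∈ trans F d ↔ nMat t • d = d := Iff.rfl

omit [NumberField F] in
theorem nMat_add (s t : F) : nMat (s + t) = nMat s * nMat t := by
  apply Units.ext
  rw [Units.val_mul, nMat_coe, nMat_coe, nMat_coe]
  simp [add_comm]

theorem exists_mul_mem_trans (d : D) : ∃ N : ℕ, N ≠ 0 ∧ ∀ t : 𝓞 F, (N : F) * t ∈ trans F d := by
  obtain ⟨N, hN0, hN⟩ := FinPart.exists_level (F := F) d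
  refine ⟨N, hN0, fun t => ?_⟩
  have h := hN ⟨!![1, (N : 𝓞 F) * t; 0, 1], by simp⟩ (by
    intro i j
    fin_cases i <;> fin_cases j <;> simp)
  have e : slO F ⟨!![1, (N : 𝓞 F) * t; 0, 1], by simp⟩ = nMat ((N : F) * t) := by
    apply Units.ext
    refine Matrix.ext fun i j => ?_
    rw [nMat_coe]
    change (((!![1, (N : 𝓞 F) * t; 0, 1] : Matrix (Fin 2) (Fin 2) (𝓞 F)) i j : 𝓞 F) : F) = _
    fin_cases i <;> fin_cases j <;> simp
  rw [e] at h
  exact h

/-- bounded denominators of the translations with bounded denominators -/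
theorem exists_isIntegral_of_bddDen (N : ℕ) : ∃ M : ℕ, M ≠ 0 ∧ ∀ t : F, BddDen N (nMat t) →
    IsIntegral ℤ ((M : F) * t) := by
  refine ⟨(N ^ (Module.finrank ℚ F + 1)).factorial, Nat.factorial_ne_zero _, fun t ht => ?_⟩
  obtain ⟨a, ha, h1, h2, h3⟩ := ht
  have hd : ((nMat t : GL (Fin 2) F) : Matrix (Fin 2) (Fin 2) F).det = 1 := by
    rw [nMat_coe, Matrix.det_fin_two_of]
    ring
  rw [hd, mul_one, map_pow, abs_pow] at h2 h3
  have hN : 1 ≤ N := by
    rcases Nat.eq_zero_or_pos N with h | h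
    · rw [h] at h3
      norm_num at h3
    · exact h
  have hNQ : (1 : ℚ) ≤ N := by exact_mod_cast hN
  have hnorm : |Algebra.norm ℚ a| ≤ N := by
    have h4 : |Algebra.norm ℚ a| ^ 2 ≤ (N : ℚ) ^ 2 := h2.trans (by nlinarith)
    exact (sq_le_sq₀ (abs_nonneg _) (by positivity)).mp h4
  have e0 : (nMat t : GL (Fin 2) F) 0 0 = 1 := by rw [nMat_coe]; rfl
  have e1 : (nMat t : GL (Fin 2) F) 0 1 = t := by rw [nMat_coe]; rfl
  have hx1 := h1 0 0
  have hx2 := h1 0 1
  rw [e0, mul_one] at hx1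
  rw [e1] at hx2
  let x : 𝓞 F := ⟨(N : F) * a, hx1⟩
  have hx : (x : F) = (N : F) * a := rfl
  have hx0 : x ≠ 0 := by
    intro h
    have h5 : (x : F) = 0 := by rw [h]; rfl
    rw [hx] at h5
    rcases mul_eq_zero.mp h5 with h | h
    · have : N = 0 := by exact_mod_cast h
      omega
    · exact ha h
  set ν := Ideal.absNorm (Ideal.span {x}) with hν
  have hν0 : ν ≠ 0 := by
    rw [hν, Ne, Ideal.absNorm_eq_zero_iff, Ideal.span_singleton_eq_bot]
    exact hx0
  have hνle : ν ≤ N ^ (Module.finrank ℚ F + 1) := by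
    have h6 : (ν : ℚ) = |Algebra.norm ℚ ((x : 𝓞 F) : F)| := by
      rw [hν, Ideal.absNorm_span_singleton, ← Algebra.coe_norm_int, Nat.cast_natAbs]
      push_cast
      rfl
    have h7 : (ν : ℚ) ≤ (N : ℚ) ^ (Module.finrank ℚ F + 1) := by
      have h9 : Algebra.norm ℚ (N : F) = (N : ℚ) ^ Module.finrank ℚ F := by
        have := Algebra.norm_algebraMap (R := ℚ) (S := F) (N : ℚ)
        rwa [map_natCast] at this
      rw [h6, hx, map_mul, abs_mul, h9, abs_pow, Nat.abs_cast, pow_succ]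
      exact mul_le_mul_of_nonneg_left hnorm (pow_nonneg (Nat.cast_nonneg N) _)
    exact_mod_cast h7
  obtain ⟨c, hc⟩ : ν ∣ (N ^ (Module.finrank ℚ F + 1)).factorial :=
    Nat.dvd_factorial (Nat.pos_of_ne_zero hν0) hνle
  obtain ⟨y, hy⟩ := Ideal.mem_span_singleton'.mp (Ideal.absNorm_mem (Ideal.span {x}))
  have hyF : ((ν : ℕ) : F) = (y : F) * ((N : F) * a) := by
    rw [← hx]
    have h8 := congrArg (fun z : 𝓞 F => (z : F)) hy
    simp only [map_mul, map_natCast] at h8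
    exact h8.symm
  rw [hc]
  push_cast
  rw [hyF]
  have : (y : F) * ((N : F) * a) * (c : F) * t = (c : F) * ((y : F) * ((N : F) * (a * t))) := by
    ring
  rw [this]
  exact (isIntegral_natCast c).mul (y.isIntegral_coe.mul hx2)

theorem exists_isIntegral_trans (d : D) : ∃ M : ℕ, M ≠ 0 ∧ ∀ t ∈ trans F d,
    IsIntegral ℤ ((M : F) * t) := by
  obtain ⟨N, hN⟩ := FinPart.exists_bdd (F := F) d
  obtain ⟨M, hM0, hM⟩ := exists_isIntegral_of_bddDen (F := F) N
  exact ⟨M, hM0, fun t ht => hM t (hN _ ht)⟩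

end Lattice

end Fermat.Agent.LT.Sp
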