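import Fermat.Agent.LT.Sp.Height
import Fermat.Agent.LT.Sp.Cor
import Fermat.Agent.LT.FA.QInt

set_option autoImplicit false

/-!
# The Siegel covering of `∏ H³ × D`, finite volume and weights
-/

namespace Fermat.Agent.LT.Sp

open NumberField NumberField.InfinitePlace Matrix MeasureTheory
open Fermat.Agent.LT
open scoped MatrixGroups ENNReal NNReal

section Volume

/-- the cuspidal region `‖z‖ ≤ R`, `y ≥ R⁻¹` has finite volume -/
theorem volume_cusp_lt_top {R : ℝ} (hR : 0 < R) :
    (volume : Measure H3) {p | ‖p.z‖ ≤ R ∧ R⁻¹ ≤ p.y} < ∞ := by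
  have hm : MeasurableSet {p : H3 | ‖p.z‖ ≤ R ∧ R⁻¹ ≤ p.y} :=
    ((isClosed_le H3.continuous_z.norm continuous_const).inter
      (isClosed_le continuous_const H3.continuous_y)).measurableSet
  rw [← lintegral_indicator_one hm, H3.lintegral_eq]
  have h1 : ∫⁻ q in H3.uhs, H3.dens q *
      ({p : H3 | ‖p.z‖ ≤ R ∧ R⁻¹ ≤ p.y}.indicator 1 (H3.ofCR q) : ℝ≥0∞) ≤
      ∫⁻ q : ℂ × ℝ, ((Metric.closedBall (0 : ℂ) R).indicator 1 q.1 : ℝ≥0∞) *
        ((Set.Ici R⁻¹).indicator (fun y => ENNReal.ofReal ((y ^ 3)⁻¹)) q.2 : ℝ≥0∞) := by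
    rw [← lintegral_indicator H3.measurableSet_uhs]
    refine lintegral_mono fun q => ?_
    by_cases hq : q ∈ H3.uhs
    · rw [Set.indicator_of_mem hq]
      by_cases h : H3.ofCR q ∈ {p : H3 | ‖p.z‖ ≤ R ∧ R⁻¹ ≤ p.y}
      · rw [Set.indicator_of_mem h]
        obtain ⟨h2, h3⟩ := h
        rw [H3.ofCR_z] at h2
        rw [H3.ofCR_y hq] at h3
        rw [Set.indicator_of_mem (show q.1 ∈ Metric.closedBall (0 : ℂ) R by simpa using h2),
          Set.indicator_of_mem (show q.2 ∈ Set.Ici R⁻¹ from h3)]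
        simp [H3.dens]
      · rw [Set.indicator_of_notMem h, mul_zero]
        exact zero_le
    · rw [Set.indicator_of_notMem hq]
      exact zero_le
  refine lt_of_le_of_lt h1 ?_
  rw [Measure.volume_eq_prod, lintegral_prod_mul]
  · refine ENNReal.mul_lt_top ?_ ?_
    · rw [lintegral_indicator_one measurableSet_closedBall]
      exact measure_closedBall_lt_top
    · rw [lintegral_indicator measurableSet_Ici]
      have h2 : IntegrableOn (fun y : ℝ => (y ^ 3)⁻¹) (Set.Ici R⁻¹) := by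
        rw [integrableOn_Ici_iff_integrableOn_Ioi]
        have h3 := integrableOn_Ioi_rpow_of_lt (a := (-3 : ℝ)) (by norm_num) (inv_pos.mpr hR)
        refine h3.congr_fun (fun y hy => ?_) measurableSet_Ioi
        have hy0 : 0 < y := (inv_pos.mpr hR).trans hy
        show y ^ (-3 : ℝ) = (y ^ 3)⁻¹
        rw [Real.rpow_neg hy0.le]
        norm_cast
      exact h2.lintegral_lt_top
  · exact (measurable_one.indicator measurableSet_closedBall).aemeasurable
  · exact (Measurable.indicator (by fun_prop) measurableSet_Ici).aemeasurable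

variable (F : Type*) [Field F] [NumberField F]

omit [NumberField F] in
theorem isClosed_siegel (R : ℝ) : IsClosed (Siegel F R) := by
  have h : Siegel F R = ⋂ w : InfinitePlace F, {x : HF F | ‖(x w).z‖ ≤ R} ∩
      {x : HF F | R⁻¹ ≤ (x w).y} ∩ ⋂ w' : InfinitePlace F, {x : HF F | (x w).y ≤ R * (x w').y} := by
    ext x
    simp only [Siegel, Set.mem_ofPred_eq, Set.mem_iInter, Set.mem_inter_iff]
    constructor
    · intro h w
      exact ⟨⟨(h w).1, (h w).2.1⟩, (h w).2.2⟩
    · intro h w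
      exact ⟨(h w).1.1, (h w).1.2, (h w).2⟩
  rw [h]
  have hc : ∀ w : InfinitePlace F, Continuous fun x : HF F => x w := fun w => continuous_apply w
  refine isClosed_iInter fun w => IsClosed.inter (IsClosed.inter ?_ ?_) (isClosed_iInter fun w' => ?_)
  · exact isClosed_le (H3.continuous_z.comp (hc w)).norm continuous_const
  · exact isClosed_le continuous_const (H3.continuous_y.comp (hc w))
  · exact isClosed_le (H3.continuous_y.comp (hc w))
      (continuous_const.mul (H3.continuous_y.comp (hc w')))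

theorem measurableSet_siegel (R : ℝ) : MeasurableSet (Siegel F R) :=
  (isClosed_siegel F R).measurableSet

/-- **Siegel sets have finite volume.** -/
theorem volume_siegel_lt_top {R : ℝ} (hR : 0 < R) : (volume : Measure (HF F)) (Siegel F R) < ∞ := by
  have h : Siegel F R ⊆ Set.univ.pi fun _ : InfinitePlace F => {p : H3 | ‖p.z‖ ≤ R ∧ R⁻¹ ≤ p.y} := by
    intro x hx w _
    exact ⟨(hx w).1, (hx w).2.1⟩
  refine lt_of_le_of_lt (measure_mono h) ?_
  show (Measure.pi fun _ : InfinitePlace F => (volume : Measure H3)) _ < ∞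
  rw [Measure.pi_pi]
  exact ENNReal.prod_lt_top fun w _ => volume_cusp_lt_top hR

end Volume

section Cover

variable {F : Type*} [Field F] [NumberField F]

theorem bddDen_slO (γ : SpecialLinearGroup (Fin 2) (𝓞 F)) : BddDen 1 (slO F γ) := by
  have hdet : ((slO F γ : GL (Fin 2) F) : Matrix (Fin 2) (Fin 2) F).det = 1 :=
    (SpecialLinearGroup.map (algebraMap (𝓞 F) F) γ).2
  refine ⟨1, one_ne_zero, fun i j => ?_, ?_, ?_⟩
  · rw [Nat.cast_one, one_mul, one_mul]
    exact RingOfIntegers.isIntegral_coe (γ i j)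
  · rw [hdet]; simp
  · rw [hdet]; simp

variable {D : Type*} [MulAction (GL (Fin 2) F) D] [FinPart F D]

/-- orbits of `SL₂(𝓞)` on `D` are finite -/
theorem finite_slO_orbit [IsTotallyComplex F] (d : D) :
    {e : D | ∃ γ : SpecialLinearGroup (Fin 2) (𝓞 F), slO F γ • d = e}.Finite := by
  classical
  obtain ⟨M, hM0, hM⟩ := FinPart.exists_level (F := F) d
  obtain ⟨Φ, -, hΦ⟩ := exists_finset_mod (F := F) 1 M hM0
  refine (Φ.image (fun φ => φ • d)).finite_toSet.subset ?_
  rintro e ⟨γ, rfl⟩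
  obtain ⟨φ, hφ, u, γ', hγ', e1⟩ := hΦ _ (bddDen_slO γ)
  rw [Finset.coe_image]
  refine ⟨φ, hφ, ?_⟩
  show φ • d = slO F γ • d
  rw [e1, mul_smul, mul_smul, hM γ' hγ', FinPart.scalar_smul (F := F)]

variable (F D)

/-- **The Siegel covering.** -/
theorem exists_cover [IsTotallyComplex F] : ∃ (R : ℝ) (D₁ : Finset D), 1 ≤ R ∧
    ∀ y : HF F × D, ∃ g : GL (Fin 2) F, (g • y).1 ∈ Siegel F R ∧ (g • y).2 ∈ D₁ := by
  classical
  obtain ⟨D₀, hD₀⟩ := FinPart.exists_reps (F := F) (D := D)
  obtain ⟨S, R, hR, hS⟩ := siegel F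
  have hfin : (⋃ d ∈ D₀, ⋃ s ∈ S, (fun e => (slF F s)⁻¹ • e) '' {e : D | ∃ γ : SpecialLinearGroup (Fin 2) (𝓞 F),
      slO F γ • d = e}).Finite :=
    D₀.finite_toSet.biUnion fun d _ => S.finite_toSet.biUnion fun s _ =>
      (finite_slO_orbit (F := F) d).image _
  refine ⟨R, hfin.toFinset, hR, ?_⟩
  rintro ⟨p, d⟩
  obtain ⟨g, hg⟩ := hD₀ d
  obtain ⟨γ, s, hs, x', hx', e⟩ := hS (g • p)
  refine ⟨(slO F γ * slF F s)⁻¹ * g, ?_, ?_⟩
  · show ((slO F γ * slF F s)⁻¹ * g) • p ∈ Siegel F R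
    rw [mul_smul, e, ← mul_smul (slO F γ), inv_smul_smul]
    exact hx'
  · show ((slO F γ * slF F s)⁻¹ * g) • d ∈ hfin.toFinset
    rw [Set.Finite.mem_toFinset]
    simp only [Set.mem_iUnion]
    refine ⟨g • d, hg, s, hs, (slO F γ)⁻¹ • g • d, ⟨γ⁻¹, by rw [map_inv]⟩, ?_⟩
    show (slF F s)⁻¹ • (slO F γ)⁻¹ • g • d = _
    rw [_root_.mul_inv_rev, mul_smul, mul_smul]

variable {F D}

/-- Siegel domain of `∏ H³ × D` -/
def SS (F : Type*) [Field F] {D : Type*} (R : ℝ) (D₁ : Finset D) : Set (HF F × D) :=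
  Siegel F R ×ˢ (D₁ : Set D)

/-- every orbit visits a Siegel domain finitely often -/
theorem finite_visits [IsTotallyComplex F] {R : ℝ} (hR : 1 ≤ R) (D₁ : Finset D) (y : HF F × D) :
    {γ : PGL(2, F) | γ • y ∈ SS F R D₁}.Finite := by
  obtain ⟨N, -, hN⟩ := exists_bddDen_of_finset (F := F) {y.2} D₁
  refine (finite_smul_mem_siegel N hR y.1).subset ?_
  intro γ hγ
  induction γ using ProjGenLinGroup.induction_on with
  | mk g => exact ⟨g, rfl, hN g ⟨y.2, Finset.mem_singleton_self _, hγ.2⟩, hγ.1⟩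

end Cover

section Weight

variable {F : Type*} [Field F] [NumberField F] {D : Type*} [MeasurableSpace D]
  [DiscreteMeasurableSpace D]

theorem measurableSet_SS (R : ℝ) (D₁ : Finset D) : MeasurableSet (SS F R D₁) :=
  (measurableSet_siegel F R).prod D₁.finite_toSet.measurableSet

theorem muY_SS_lt_top {R : ℝ} (hR : 0 < R) (D₁ : Finset D) [Countable D] :
    muY F D (SS F R D₁) < ∞ := by
  rw [muY, SS, Measure.prod_prod]
  exact ENNReal.mul_lt_top (volume_siegel_lt_top F hR)
    (Measure.count_apply_lt_top.mpr D₁.finite_toSet)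

variable [MulAction (GL (Fin 2) F) D]

omit [NumberField F] in
theorem measurePreserving_count (g : GL (Fin 2) F) :
    MeasurePreserving (fun d : D => g • d) Measure.count Measure.count := by
  refine ⟨Measurable.of_discrete, ?_⟩
  ext s _
  rw [Measure.map_apply Measurable.of_discrete (MeasurableSet.of_discrete)]
  have h : (fun d : D => g • d) ⁻¹' s = (fun d : D => g⁻¹ • d) '' s := by
    ext d
    constructor
    · intro h
      exact ⟨g • d, h, inv_smul_smul g d⟩
    · rintro ⟨e, he, rfl⟩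
      show g • g⁻¹ • e ∈ s
      rwa [smul_inv_smul]
  rw [h, Measure.count_injective_image (MulAction.injective g⁻¹)]

theorem measurePreserving_muY [Countable D] (g : GL (Fin 2) F) :
    MeasurePreserving (fun y : HF F × D => g • y) (muY F D) (muY F D) :=
  (measurePreserving_smul_HF g).prod (measurePreserving_count g)

variable [FinPart F D]

instance instMeasurableConstSMulY : MeasurableConstSMul PGL(2, F) (HF F × D) := by
  refine ⟨fun γ => ?_⟩
  induction γ using ProjGenLinGroup.induction_on with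
  | mk g =>
    show Measurable fun y : HF F × D => g • y
    exact ((continuous_smul_HF g).measurable.comp measurable_fst).prodMk
      (Measurable.of_discrete.comp measurable_snd)

instance instSMulInvariantY [Countable D] : SMulInvariantMeasure PGL(2, F) (HF F × D) (muY F D) := by
  refine ⟨fun γ s hs => ?_⟩
  induction γ using ProjGenLinGroup.induction_on with
  | mk g => exact (measurePreserving_muY g).measure_preimage hs.nullMeasurableSet

/-- **Weights of finite mass exist.** -/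
theorem exists_weight [IsTotallyComplex F] [Countable D] : ∃ (R : ℝ) (D₁ : Finset D), 1 ≤ R ∧
    (∀ y : HF F × D, ∃ γ : PGL(2, F), γ • y ∈ SS F R D₁) ∧
    (∀ y : HF F × D, {γ : PGL(2, F) | γ • y ∈ SS F R D₁}.Finite) ∧
    ∃ w : HF F × D → ℝ≥0, FA.IsWt PGL(2, F) (muY F D) w ∧ (∀ y, w y ≤ 1) ∧
      (∀ y, y ∉ SS F R D₁ → w y = 0) ∧ FA.wtM (muY F D) w Set.univ < ∞ := by
  classical
  obtain ⟨R, D₁, hR, hcov⟩ := exists_cover F D
  have h1 : ∀ y : HF F × D, ∃ γ : PGL(2, F), γ • y ∈ SS F R D₁ := by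
    intro y
    obtain ⟨g, hg1, hg2⟩ := hcov y
    exact ⟨ProjGenLinGroup.mk g, hg1, hg2⟩
  have h2 := fun y : HF F × D => finite_visits (F := F) hR D₁ y
  obtain ⟨w, hw, hw1, hw0⟩ := FA.exists_isWt (G := PGL(2, F)) (μ := muY F D) (SS F R D₁)
    (measurableSet_SS R D₁) (Filter.Eventually.of_forall h1) (Filter.Eventually.of_forall h2)
  refine ⟨R, D₁, hR, h1, h2, w, hw, hw1, hw0, ?_⟩
  rw [FA.wtM_univ]
  calc ∫⁻ y, (w y : ℝ≥0∞) ∂(muY F D) ≤ ∫⁻ y, (SS F R D₁).indicator 1 y ∂(muY F D) := by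
        refine lintegral_mono fun y => ?_
        by_cases hy : y ∈ SS F R D₁
        · rw [Set.indicator_of_mem hy]
          rw [Pi.one_apply]
          exact ENNReal.coe_le_one_iff.mpr (hw1 y)
        · rw [hw0 y hy, Set.indicator_of_notMem hy]
          simp
    _ = muY F D (SS F R D₁) := lintegral_indicator_one (measurableSet_SS R D₁)
    _ < ∞ := muY_SS_lt_top (by linarith) D₁

end Weight

end Fermat.Agent.LT.Sp
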