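import Fermat.Agent.LT.HF
import Fermat.Agent.LT.H3.Inv2
import Fermat.Agent.LT.Red.Siegel

set_option autoImplicit false

/-!
# The space `∏ H³ × D` with its action of `PGL₂(F)`

`F` is a (totally complex) number field; `D` is a discrete set with an action of `GL₂(F)` with
finitely many orbits and with stabilisers commensurable with `GL₂(𝓞 F)` modulo scalars.
-/

namespace Fermat.Agent.LT.Sp

open Matrix NumberField MeasureTheory
open scoped MatrixGroups Pointwise

section Scalars

/-- scalars act trivially on hyperbolic space -/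
theorem scalar_smul_H3 (u : ℂˣ) (p : H3) : GeneralLinearGroup.scalar (Fin 2) u • p = p := by
  apply H3.ext_q
  intro c d
  have hu : (0 : ℝ) < ‖(u : ℂ)‖ := norm_pos_iff.mpr u.ne_zero
  have e00 : (GeneralLinearGroup.scalar (Fin 2) u) 0 0 = (u : ℂ) := by
    simp [GeneralLinearGroup.coe_scalar]
  have e01 : (GeneralLinearGroup.scalar (Fin 2) u) 0 1 = (0 : ℂ) := by
    simp [GeneralLinearGroup.coe_scalar]
  have e10 : (GeneralLinearGroup.scalar (Fin 2) u) 1 0 = (0 : ℂ) := by
    simp [GeneralLinearGroup.coe_scalar]
  have e11 : (GeneralLinearGroup.scalar (Fin 2) u) 1 1 = (u : ℂ) := by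
    simp [GeneralLinearGroup.coe_scalar]
  rw [H3.q_smul_eq, Matrix.det_fin_two, e00, e01, e10, e11]
  rw [show c * (u : ℂ) + d * 0 = u * c by ring, show c * (0 : ℂ) + d * u = u * d by ring,
    H3.q_smul]
  rw [show (u : ℂ) * u - 0 * 0 = u * u by ring, norm_mul]
  field_simp

variable {F : Type*} [Field F]

theorem scalar_smul_HF (u : Fˣ) (x : HF F) : GeneralLinearGroup.scalar (Fin 2) u • x = x := by
  funext w
  rw [smul_HF_apply]
  have : embGL w (GeneralLinearGroup.scalar (Fin 2) u) =
      GeneralLinearGroup.scalar (Fin 2) (Units.map (w.embedding : F →* ℂ) u) :=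
    GeneralLinearGroup.map_scalar (f := w.embedding) u
  rw [this, scalar_smul_H3]

noncomputable instance : MulAction PGL(2, F) (HF F) := ProjGenLinGroup.mulActionOfGL scalar_smul_HF

theorem mk_smul_HF (g : GL (Fin 2) F) (x : HF F) : ProjGenLinGroup.mk g • x = g • x := rfl

end Scalars

section Measure

variable (F : Type*) [Field F]

noncomputable instance : TopologicalSpace (HF F) :=
  inferInstanceAs (TopologicalSpace (InfinitePlace F → H3))
instance : T2Space (HF F) := inferInstanceAs (T2Space (InfinitePlace F → H3))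
noncomputable instance : MeasurableSpace (HF F) :=
  inferInstanceAs (MeasurableSpace (InfinitePlace F → H3))

variable [NumberField F]

instance : SecondCountableTopology (HF F) :=
  inferInstanceAs (SecondCountableTopology (InfinitePlace F → H3))
instance : LocallyCompactSpace (HF F) :=
  inferInstanceAs (LocallyCompactSpace (InfinitePlace F → H3))
instance : BorelSpace (HF F) := inferInstanceAs (BorelSpace (InfinitePlace F → H3))
noncomputable instance : MeasureSpace (HF F) :=
  inferInstanceAs (MeasureSpace (InfinitePlace F → H3))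
instance : SigmaFinite (volume : Measure (HF F)) :=
  inferInstanceAs (SigmaFinite (volume : Measure (InfinitePlace F → H3)))
instance : IsFiniteMeasureOnCompacts (volume : Measure (HF F)) :=
  inferInstanceAs (IsFiniteMeasureOnCompacts (volume : Measure (InfinitePlace F → H3)))

variable {F}

theorem measurePreserving_smul_HF (g : GL (Fin 2) F) :
    MeasurePreserving (fun x : HF F => g • x) :=
  MeasureTheory.volume_preserving_pi (fun w => H3.measurePreserving_smul_H3 (embGL w g))

omit [NumberField F] in
theorem continuous_smul_HF (g : GL (Fin 2) F) : Continuous (fun x : HF F => g • x) :=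
  continuous_pi fun w => (continuous_const_smul (embGL w g)).comp (continuous_apply w)

instance : SMulInvariantMeasure (GL (Fin 2) F) (HF F) volume :=
  ⟨fun g _ hs => (measurePreserving_smul_HF g).measure_preimage hs.nullMeasurableSet⟩

instance : ContinuousConstSMul (GL (Fin 2) F) (HF F) := ⟨continuous_smul_HF⟩

instance : ContinuousConstSMul PGL(2, F) (HF F) := ⟨fun g => by
  induction g using ProjGenLinGroup.induction_on with | mk g => exact continuous_smul_HF g⟩

instance : SMulInvariantMeasure PGL(2, F) (HF F) volume := ⟨fun g s hs => by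
  induction g using ProjGenLinGroup.induction_on with
  | mk g => exact (measurePreserving_smul_HF g).measure_preimage hs.nullMeasurableSet⟩

end Measure

section FinPart

variable {F : Type*} [Field F] [NumberField F]

/-- `g` is, up to a scalar, a matrix with denominator and determinant bounded by `N` -/
def BddDen (N : ℕ) (g : GL (Fin 2) F) : Prop :=
  ∃ a : F, a ≠ 0 ∧ (∀ i j, IsIntegral ℤ ((N : F) * (a * g i j))) ∧
    |Algebra.norm ℚ (a ^ 2 * (g : Matrix (Fin 2) (Fin 2) F).det)| ≤ N ∧
    1 ≤ N * |Algebra.norm ℚ (a ^ 2 * (g : Matrix (Fin 2) (Fin 2) F).det)|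

/-- **The finite part.**  `D` is a discrete set with an action of `PGL₂(F)` with finitely many
orbits and stabilisers commensurable with `GL₂(𝓞 F)`. -/
class FinPart (F : Type*) [Field F] [NumberField F] (D : Type*) [MulAction (GL (Fin 2) F) D] :
    Prop where
  /-- (D0) scalars act trivially -/
  scalar_smul : ∀ (u : Fˣ) (d : D), GeneralLinearGroup.scalar (Fin 2) u • d = d
  /-- (D1) finitely many orbits -/
  exists_reps : ∃ D0 : Finset D, ∀ d : D, ∃ g : GL (Fin 2) F, g • d ∈ D0
  /-- (D2) stabilisers contain a principal congruence subgroup … -/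
  exists_level : ∀ d : D, ∃ N : ℕ, N ≠ 0 ∧ ∀ g : SpecialLinearGroup (Fin 2) (𝓞 F),
    (∀ i j, (N : 𝓞 F) ∣ g i j - (1 : Matrix (Fin 2) (Fin 2) (𝓞 F)) i j) → slO F g • d = d
  /-- … and their elements have bounded denominators and determinants, up to scalars -/
  exists_bdd : ∀ d : D, ∃ N : ℕ, ∀ g : GL (Fin 2) F, g • d = d → BddDen N g

variable {D : Type*} [MulAction (GL (Fin 2) F) D] [FinPart F D]

/-- the action of `PGL₂(F)` on the finite part -/
noncomputable instance instMulActionPGL : MulAction PGL(2, F) D :=
  ProjGenLinGroup.mulActionOfGL (FinPart.scalar_smul (F := F) (D := D))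

theorem mk_smul (g : GL (Fin 2) F) (d : D) : ProjGenLinGroup.mk g • d = g • d := rfl

theorem mk_smul_prod (g : GL (Fin 2) F) (y : HF F × D) : ProjGenLinGroup.mk g • y = g • y := rfl

variable [MeasurableSpace D] [DiscreteMeasurableSpace D]

/-- the invariant measure on `∏ H³ × D` -/
noncomputable def muY (F : Type*) [Field F] [NumberField F] (D : Type*) [MeasurableSpace D] :
    Measure (HF F × D) := (volume : Measure (HF F)).prod Measure.count

end FinPart

section Kernels

/-- `GL₂(F)`-invariant kernels on `D` with finite rows -/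
structure DKer (F : Type*) [Field F] [NumberField F] (D : Type*) [MulAction (GL (Fin 2) F) D] where
  κ : D → D → ℂ
  smul : ∀ (g : GL (Fin 2) F) (d d' : D), κ (g • d) (g • d') = κ d d'
  finite : ∀ d, {d' | κ d d' ≠ 0}.Finite

variable {F : Type*} [Field F] [NumberField F]

/-- the diagonal matrix `diag(a, 1)` -/
noncomputable def aMat (a : Fˣ) : GL (Fin 2) F :=
  GeneralLinearGroup.mkOfDetNeZero !![(a : F), 0; 0, 1] (by simp)

omit [NumberField F] in
theorem aMat_coe (a : Fˣ) : ((aMat a : GL (Fin 2) F) : Matrix (Fin 2) (Fin 2) F) =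
    !![(a : F), 0; 0, 1] := rfl

/-- **The killing place.**  `ϖ` generates a prime of norm `q`; `nbr d` are the `q + 1` neighbours
of `d` in the tree at this prime; modulo translations, `q` of them are `diag(ϖ,1) d` and one of
them is `diag(ϖ,1)⁻¹ d`. -/
structure KillPlace (F : Type*) [Field F] [NumberField F] (D : Type*)
    [MulAction (GL (Fin 2) F) D] where
  ϖ : Fˣ
  q : ℕ
  norm_eq : |Algebra.norm ℚ (ϖ : F)| = q
  one_lt : 1 < q
  nbr : D → Finset D
  smul_mem_nbr : ∀ (g : GL (Fin 2) F) (d d' : D), g • d' ∈ nbr (g • d) ↔ d' ∈ nbr d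
  symm : ∀ d d' : D, d' ∈ nbr d ↔ d ∈ nbr d'
  card_up : ∀ d : D, {d' ∈ (nbr d : Set D) | ∃ t : F, d' = nMat t • aMat ϖ • d}.ncard = q
  card_down : ∀ d : D, {d' ∈ (nbr d : Set D) | ∃ t : F, d' = nMat t • (aMat ϖ)⁻¹ • d}.ncard = 1
  card_nbr : ∀ d : D, (nbr d).card = q + 1

end Kernels

end Fermat.Agent.LT.Sp
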