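import Fermat.Agent.LT.Sp.Cor

set_option autoImplicit false

/-!
# The action of the automorphisms of `F` on `∏ H³`
-/

namespace Fermat.Agent.LT

open Matrix NumberField ComplexConjugate MeasureTheory Set
open scoped MatrixGroups

namespace H3

/-- complex conjugation on hyperbolic space -/
def cj (p : H3) : H3 := ⟨conj p.z, p.y, p.pos⟩

@[simp] theorem cj_z (p : H3) : (cj p).z = conj p.z := rfl

@[simp] theorem cj_y (p : H3) : (cj p).y = p.y := rfl

@[simp] theorem cj_cj (p : H3) : cj (cj p) = p := by
  apply H3.ext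
  · simp
  · simp

theorem q_cj (p : H3) (c d : ℂ) : (cj p).q c d = p.q (conj c) (conj d) := by
  have h1 : ‖c * conj p.z + d‖ = ‖conj c * p.z + conj d‖ := by
    rw [← RCLike.norm_conj (c * conj p.z + d)]
    simp
  have h2 : ‖c‖ = ‖conj c‖ := (RCLike.norm_conj c).symm
  rw [q, q, den, den, cj_z, cj_y, h1, h2]

theorem cj_smul (g : GL (Fin 2) ℂ) (p : H3) :
    cj (g • p) = GeneralLinearGroup.map (starRingEnd ℂ) g • cj p := by
  apply ext_q
  intro c d
  have e : ∀ i j, (GeneralLinearGroup.map (starRingEnd ℂ) g) i j = conj (g i j) := fun i j => rfl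
  rw [q_cj, q_smul_eq, q_smul_eq, q_cj, Matrix.det_fin_two, Matrix.det_fin_two, e, e, e, e]
  have h : ‖conj (g 0 0) * conj (g 1 1) - conj (g 0 1) * conj (g 1 0)‖ =
      ‖g 0 0 * g 1 1 - g 0 1 * g 1 0‖ := by
    rw [← RCLike.norm_conj (g 0 0 * g 1 1 - g 0 1 * g 1 0)]
    simp
  rw [h]
  simp

theorem cd_cj (p p' : H3) : cd (cj p) (cj p') = cd p p' := by
  have h : ‖conj p.z - conj p'.z‖ = ‖p.z - p'.z‖ := by
    rw [← map_sub, RCLike.norm_conj]
  have h1 := two_cd (cj p) (cj p')
  have h2 := two_cd p p'
  rw [cd, cd]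
  simp only [cj_z, cj_y, h]

theorem continuous_cj : Continuous cj :=
  continuous_mk (Complex.continuous_conj.comp continuous_z) continuous_y

/-- the conjugation in coordinates -/
def cjCR (q : ℂ × ℝ) : ℂ × ℝ := (conj q.1, q.2)

theorem measurePreserving_cjCR : MeasurePreserving cjCR :=
  (Complex.conjLIE.measurePreserving).prod (MeasurePreserving.id volume)

theorem cj_ofCR (q : ℂ × ℝ) : cj (ofCR q) = ofCR (cjCR q) := by
  apply H3.ext
  · rw [cj_z, ofCR_z, ofCR_z]; rfl
  · rw [cj_y]
    by_cases h : 0 < q.2
    · rw [ofCR_of_pos h, ofCR_of_pos (show 0 < (cjCR q).2 from h)]; rfl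
    · rw [ofCR, ofCR, dif_neg h, dif_neg (show ¬ 0 < (cjCR q).2 from h)]

theorem measurePreserving_cj : MeasurePreserving cj := by
  refine ⟨continuous_cj.measurable, ?_⟩
  ext s hs
  rw [Measure.map_apply continuous_cj.measurable hs, ← lintegral_indicator_one
    (continuous_cj.measurable hs), ← lintegral_indicator_one hs, lintegral_eq, lintegral_eq]
  have h := measurePreserving_cjCR.setLIntegral_comp_preimage measurableSet_uhs
    (f := fun q => dens q * s.indicator 1 (ofCR q)) (measurable_dens.mul
      ((measurable_one.indicator hs).comp measurable_ofCR))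
  rw [← h]
  refine setLIntegral_congr_fun measurableSet_uhs fun q hq => ?_
  simp only [← cj_ofCR]
  rfl

/-- the conjugation as a homeomorphism -/
def cjHomeo : H3 ≃ₜ H3 where
  toFun := cj
  invFun := cj
  left_inv := cj_cj
  right_inv := cj_cj
  continuous_toFun := continuous_cj
  continuous_invFun := continuous_cj

end H3

namespace Sp

variable {F : Type*} [Field F]

open scoped Classical in
/-- the component of a point of `∏ H³` at a complex embedding -/
noncomputable def pt (x : HF F) (φ : F →+* ℂ) : H3 :=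
  if φ = (InfinitePlace.mk φ).embedding then x (InfinitePlace.mk φ)
  else H3.cj (x (InfinitePlace.mk φ))

theorem pt_embedding (x : HF F) (w : InfinitePlace F) : pt x w.embedding = x w := by
  rw [pt, InfinitePlace.mk_embedding, if_pos rfl]

theorem pt_of_eq (x : HF F) {φ : F →+* ℂ} (h : φ = (InfinitePlace.mk φ).embedding) :
    pt x φ = x (InfinitePlace.mk φ) := if_pos h

theorem pt_of_ne (x : HF F) {φ : F →+* ℂ} (h : φ ≠ (InfinitePlace.mk φ).embedding) :
    pt x φ = H3.cj (x (InfinitePlace.mk φ)) := if_neg h

theorem eq_conjugate_of_ne {φ : F →+* ℂ} (h : φ ≠ (InfinitePlace.mk φ).embedding) :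
    φ = ComplexEmbedding.conjugate (InfinitePlace.mk φ).embedding := by
  rcases InfinitePlace.mk_eq_iff.mp (InfinitePlace.mk_embedding (InfinitePlace.mk φ)) with h1 | h1
  · exact absurd h1.symm h
  · exact h1.symm

theorem pt_y (x : HF F) (φ : F →+* ℂ) : (pt x φ).y = (x (InfinitePlace.mk φ)).y := by
  rw [pt]; split_ifs <;> rfl

theorem cd_pt (x x' : HF F) (φ : F →+* ℂ) : H3.cd (pt x φ) (pt x' φ) =
    H3.cd (x (InfinitePlace.mk φ)) (x' (InfinitePlace.mk φ)) := by
  rw [pt, pt]
  split_ifs
  · rfl
  · exact H3.cd_cj _ _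

theorem pt_smul (g : GL (Fin 2) F) (x : HF F) (φ : F →+* ℂ) :
    pt (g • x) φ = GeneralLinearGroup.map φ g • pt x φ := by
  by_cases h : φ = (InfinitePlace.mk φ).embedding
  · rw [pt_of_eq _ h, pt_of_eq _ h, smul_HF_apply]
    congr 1
    show GeneralLinearGroup.map (InfinitePlace.mk φ).embedding g = _
    rw [← h]
  · rw [pt_of_ne _ h, pt_of_ne _ h, smul_HF_apply, H3.cj_smul]
    congr 1
    have h' := eq_conjugate_of_ne h
    ext i j
    show conj ((InfinitePlace.mk φ).embedding (g i j)) = φ (g i j)
    conv_rhs => rw [h']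
    rfl

theorem pt_conjugate [NumberField F] [IsTotallyComplex F] (x : HF F) (φ : F →+* ℂ) :
    pt x (ComplexEmbedding.conjugate φ) = H3.cj (pt x φ) := by
  have hmk : InfinitePlace.mk (ComplexEmbedding.conjugate φ) = InfinitePlace.mk φ :=
    InfinitePlace.mk_conjugate_eq φ
  by_cases h : φ = (InfinitePlace.mk φ).embedding
  · have h2 : ComplexEmbedding.conjugate φ ≠
        (InfinitePlace.mk (ComplexEmbedding.conjugate φ)).embedding := by
      rw [hmk, ← h]
      intro h3
      exact (InfinitePlace.isComplex_iff.mp (IsTotallyComplex.isComplex (InfinitePlace.mk φ)))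
        (by rw [← h]; exact h3)
    rw [pt_of_eq _ h, pt_of_ne _ h2, hmk]
  · have h1 := eq_conjugate_of_ne h
    have h2 : ComplexEmbedding.conjugate φ =
        (InfinitePlace.mk (ComplexEmbedding.conjugate φ)).embedding := by
      rw [hmk]
      conv_lhs => rw [h1]
      exact star_star _
    rw [pt_of_ne _ h, pt_of_eq _ h2, hmk, H3.cj_cj]

/-- **The action of automorphisms** -/
noncomputable def thetaHF (θ : F ≃+* F) (x : HF F) : HF F :=
  fun w => pt x (w.embedding.comp (θ : F →+* F))

theorem thetaHF_apply (θ : F ≃+* F) (x : HF F) (w : InfinitePlace F) :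
    thetaHF θ x w = pt x (w.embedding.comp (θ : F →+* F)) := rfl

theorem thetaHF_smul (θ : F ≃+* F) (g : GL (Fin 2) F) (x : HF F) :
    thetaHF θ (g • x) = GeneralLinearGroup.map (θ : F →+* F) g • thetaHF θ x := by
  funext w
  rw [thetaHF_apply, pt_smul, smul_HF_apply]
  rfl

/-- the permutation of the places -/
def permPl (θ : F ≃+* F) : InfinitePlace F ≃ InfinitePlace F where
  toFun w := w.comap (θ : F →+* F)
  invFun w := w.comap (θ.symm : F →+* F)
  left_inv w := by
    show (w.comap (θ : F →+* F)).comap (θ.symm : F →+* F) = w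
    rw [← InfinitePlace.comap_comp]
    have : (θ : F →+* F).comp (θ.symm : F →+* F) = RingHom.id F := by ext a; simp
    rw [this]
    rfl
  right_inv w := by
    show (w.comap (θ.symm : F →+* F)).comap (θ : F →+* F) = w
    rw [← InfinitePlace.comap_comp]
    have : (θ.symm : F →+* F).comp (θ : F →+* F) = RingHom.id F := by ext a; simp
    rw [this]
    rfl

theorem permPl_apply (θ : F ≃+* F) (w : InfinitePlace F) :
    permPl θ w = InfinitePlace.mk (w.embedding.comp (θ : F →+* F)) := by
  show w.comap (θ : F →+* F) = _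
  conv_lhs => rw [← InfinitePlace.mk_embedding w]
  exact InfinitePlace.comap_mk _ _

theorem thetaHF_y (θ : F ≃+* F) (x : HF F) (w : InfinitePlace F) :
    (thetaHF θ x w).y = (x (permPl θ w)).y := by
  rw [thetaHF_apply, pt_y, permPl_apply]

theorem cd_thetaHF (θ : F ≃+* F) (x x' : HF F) (w : InfinitePlace F) :
    H3.cd (thetaHF θ x w) (thetaHF θ x' w) = H3.cd (x (permPl θ w)) (x' (permPl θ w)) := by
  rw [thetaHF_apply, thetaHF_apply, cd_pt, permPl_apply]

theorem thetaHF_refl (x : HF F) : thetaHF (RingEquiv.refl F) x = x := by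
  funext w
  rw [thetaHF_apply]
  exact pt_embedding x w

theorem pt_thetaHF [NumberField F] [IsTotallyComplex F] (θ : F ≃+* F) (x : HF F) (φ : F →+* ℂ) :
    pt (thetaHF θ x) φ = pt x (φ.comp (θ : F →+* F)) := by
  by_cases h : φ = (InfinitePlace.mk φ).embedding
  · rw [pt_of_eq _ h, thetaHF_apply, ← h]
  · have h1 := eq_conjugate_of_ne h
    rw [pt_of_ne _ h, thetaHF_apply, ← pt_conjugate]
    congr 1
    conv_rhs => rw [h1]
    rfl

theorem thetaHF_thetaHF [NumberField F] [IsTotallyComplex F] (θ θ' : F ≃+* F) (x : HF F) :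
    thetaHF θ (thetaHF θ' x) = thetaHF (θ'.trans θ) x := by
  funext w
  rw [thetaHF_apply, thetaHF_apply, pt_thetaHF]
  rfl

theorem thetaHF_symm_apply [NumberField F] [IsTotallyComplex F] (θ : F ≃+* F) (x : HF F) :
    thetaHF θ.symm (thetaHF θ x) = x := by
  rw [thetaHF_thetaHF, RingEquiv.self_trans_symm, thetaHF_refl]

theorem thetaHF_apply_symm [NumberField F] [IsTotallyComplex F] (θ : F ≃+* F) (x : HF F) :
    thetaHF θ (thetaHF θ.symm x) = x := by
  rw [thetaHF_thetaHF, RingEquiv.symm_trans_self, thetaHF_refl]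

theorem continuous_thetaHF (θ : F ≃+* F) : Continuous (thetaHF θ : HF F → HF F) := by
  refine continuous_pi fun w => ?_
  by_cases h : w.embedding.comp (θ : F →+* F) =
    (InfinitePlace.mk (w.embedding.comp (θ : F →+* F))).embedding
  · refine (continuous_apply (InfinitePlace.mk (w.embedding.comp (θ : F →+* F)))).congr
      fun x : HF F => ?_
    exact (pt_of_eq x h).symm
  · refine (H3.continuous_cj.comp
      (continuous_apply (InfinitePlace.mk (w.embedding.comp (θ : F →+* F))))).congr
      fun x : HF F => ?_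
    exact (pt_of_ne x h).symm

theorem measurePreserving_thetaHF [NumberField F] (θ : F ≃+* F) :
    MeasurePreserving (thetaHF θ : HF F → HF F) := by
  classical
  have h1 : MeasurePreserving (fun x : InfinitePlace F → H3 => fun w =>
      (if w.embedding.comp (θ : F →+* F) =
        (InfinitePlace.mk (w.embedding.comp (θ : F →+* F))).embedding then id else H3.cj)
        (x w)) := by
    refine volume_preserving_pi fun w => ?_
    split_ifs
    · exact MeasurePreserving.id _
    · exact H3.measurePreserving_cj
  have h2 : MeasurePreserving (fun x : InfinitePlace F → H3 => fun w => x (permPl θ w)) := by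
    have h := volume_measurePreserving_piCongrLeft (fun _ : InfinitePlace F => H3) (permPl θ).symm
    have e : (fun x : InfinitePlace F → H3 => fun w => x (permPl θ w)) =
        MeasurableEquiv.piCongrLeft (fun _ : InfinitePlace F => H3) (permPl θ).symm := by
      funext x w
      simp [MeasurableEquiv.piCongrLeft, Equiv.piCongrLeft_apply]
    rw [e]
    exact h
  have h3 := h1.comp h2
  have e : (thetaHF θ : HF F → HF F) = ((fun x : InfinitePlace F → H3 => fun w =>
      (if w.embedding.comp (θ : F →+* F) =
        (InfinitePlace.mk (w.embedding.comp (θ : F →+* F))).embedding then id else H3.cj)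
        (x w)) ∘ (fun x : InfinitePlace F → H3 => fun w => x (permPl θ w))) := by
    funext x w
    show pt x (w.embedding.comp (θ : F →+* F)) = (if w.embedding.comp (θ : F →+* F) =
        (InfinitePlace.mk (w.embedding.comp (θ : F →+* F))).embedding then id else H3.cj)
        (x (permPl θ w))
    rw [permPl_apply, pt]
    split_ifs <;> rfl
  rw [e]
  exact h3

/-- the homeomorphism -/
noncomputable def thetaHomeo [NumberField F] [IsTotallyComplex F] (θ : F ≃+* F) :
    HF F ≃ₜ HF F where
  toFun := thetaHF θ
  invFun := thetaHF θ.symm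
  left_inv := thetaHF_symm_apply θ
  right_inv := thetaHF_apply_symm θ
  continuous_toFun := continuous_thetaHF θ
  continuous_invFun := continuous_thetaHF θ.symm

@[simp] theorem thetaHomeo_apply [NumberField F] [IsTotallyComplex F] (θ : F ≃+* F) (x : HF F) :
    thetaHomeo θ x = thetaHF θ x := rfl

/-! ### The action on `∏ H³ × D` -/

/-- an automorphism of `F` together with a compatible permutation of `D` -/
structure Twist (F : Type*) [Field F] (D : Type*) [MulAction (GL (Fin 2) F) D] where
  θ : F ≃+* F
  dm : D ≃ D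
  dm_smul : ∀ (g : GL (Fin 2) F) (d : D), dm (g • d) = GeneralLinearGroup.map (θ : F →+* F) g • dm d

namespace Twist

variable {D : Type*} [MulAction (GL (Fin 2) F) D] (T : Twist F D)

/-- the automorphism of `GL₂(F)` -/
noncomputable def gm : GL (Fin 2) F ≃* GL (Fin 2) F where
  toFun := GeneralLinearGroup.map (T.θ : F →+* F)
  invFun := GeneralLinearGroup.map (T.θ.symm : F →+* F)
  left_inv g := by ext i j; simp
  right_inv g := by ext i j; simp
  map_mul' := map_mul _

theorem gm_apply (g : GL (Fin 2) F) (i j : Fin 2) : T.gm g i j = T.θ (g i j) := rfl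

theorem dm_smul' (g : GL (Fin 2) F) (d : D) : T.dm (g • d) = T.gm g • T.dm d := T.dm_smul g d

/-- the action of a twist on `∏ H³ × D` -/
noncomputable def act (y : HF F × D) : HF F × D := (thetaHF T.θ y.1, T.dm y.2)

@[simp] theorem act_fst (y : HF F × D) : (T.act y).1 = thetaHF T.θ y.1 := rfl

@[simp] theorem act_snd (y : HF F × D) : (T.act y).2 = T.dm y.2 := rfl

theorem act_smul (g : GL (Fin 2) F) (y : HF F × D) : T.act (g • y) = T.gm g • T.act y :=
  Prod.ext (thetaHF_smul T.θ g y.1) (T.dm_smul g y.2)

/-- the inverse twist -/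
def symm : Twist F D where
  θ := T.θ.symm
  dm := T.dm.symm
  dm_smul g d := by
    rw [Equiv.symm_apply_eq, T.dm_smul, Equiv.apply_symm_apply]
    congr 1
    ext i j; simp

theorem act_symm_act [NumberField F] [IsTotallyComplex F] (y : HF F × D) :
    T.symm.act (T.act y) = y :=
  Prod.ext (thetaHF_symm_apply T.θ y.1) (T.dm.symm_apply_apply y.2)

theorem act_act_symm [NumberField F] [IsTotallyComplex F] (y : HF F × D) :
    T.act (T.symm.act y) = y :=
  Prod.ext (thetaHF_apply_symm T.θ y.1) (T.dm.apply_symm_apply y.2)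

/-- the twist as a homeomorphism of `∏ H³ × D` -/
noncomputable def homeo [NumberField F] [IsTotallyComplex F] [TopologicalSpace D]
    [DiscreteTopology D] : HF F × D ≃ₜ HF F × D where
  toFun := T.act
  invFun := T.symm.act
  left_inv := T.act_symm_act
  right_inv := T.act_act_symm
  continuous_toFun := ((continuous_thetaHF T.θ).comp continuous_fst).prodMk
    ((continuous_of_discreteTopology (f := T.dm)).comp continuous_snd)
  continuous_invFun := ((continuous_thetaHF T.θ.symm).comp continuous_fst).prodMk
    ((continuous_of_discreteTopology (f := T.dm.symm)).comp continuous_snd)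

theorem measurePreserving_act [NumberField F] [MeasurableSpace D] [DiscreteMeasurableSpace D]
    [Countable D] : MeasurePreserving T.act (muY F D) (muY F D) := by
  have h : MeasurePreserving (T.dm : D → D) Measure.count Measure.count := by
    refine ⟨Measurable.of_discrete, ?_⟩
    ext s hs
    rw [Measure.map_apply Measurable.of_discrete hs, Measure.count_apply hs,
      Measure.count_apply (Measurable.of_discrete hs), Set.encard_preimage_of_bijective T.dm.bijective]
  exact (measurePreserving_thetaHF T.θ).prod h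

/-- `T³ = 1` -/
def IsCubic : Prop := (∀ a, T.θ (T.θ (T.θ a)) = a) ∧ ∀ d, T.dm (T.dm (T.dm d)) = d

variable {T}

theorem IsCubic.act [NumberField F] [IsTotallyComplex F] (h : T.IsCubic) (y : HF F × D) :
    T.act (T.act (T.act y)) = y := by
  refine Prod.ext ?_ (h.2 y.2)
  show thetaHF T.θ (thetaHF T.θ (thetaHF T.θ y.1)) = y.1
  rw [thetaHF_thetaHF, thetaHF_thetaHF]
  have : T.θ.trans (T.θ.trans T.θ) = RingEquiv.refl F := by
    ext a; exact h.1 a
  rw [this, thetaHF_refl]

theorem IsCubic.gm (h : T.IsCubic) (g : GL (Fin 2) F) : T.gm (T.gm (T.gm g)) = g := by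
  ext i j
  exact h.1 _

end Twist

end Sp

end Fermat.Agent.LT
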