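import Fermat.Agent.LT.Sp.Cor

set_option autoImplicit false

/-!
# The algebra of invariant kernels on the finite part
-/

namespace Fermat.Agent.LT.Sp

open Matrix NumberField ComplexConjugate
open scoped MatrixGroups

variable {F : Type*} [Field F] [NumberField F] {D : Type*} [MulAction (GL (Fin 2) F) D]

namespace DKer

@[ext] theorem ext' {K K' : DKer F D} (h : ∀ d d', K.κ d d' = K'.κ d d') : K = K' := by
  cases K; cases K'
  congr
  funext d d'
  exact h d d'

theorem smul' (K : DKer F D) (g : GL (Fin 2) F) (d d' : D) : K.κ (g • d) d' = K.κ d (g⁻¹ • d') := by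
  conv_lhs => rw [← smul_inv_smul g d']
  rw [K.smul]

/-- the identity kernel -/
noncomputable def one (F : Type*) [Field F] [NumberField F] (D : Type*)
    [MulAction (GL (Fin 2) F) D] : DKer F D := by
  classical
  exact
  { κ := fun d d' => if d = d' then 1 else 0
    smul := fun g d d' => by simp [smul_left_cancel_iff]
    finite := fun d => (Set.finite_singleton d).subset fun d' hd' => by
      by_contra h
      exact hd' (if_neg fun h' => h h'.symm) }

/-- sums -/
noncomputable def add (K K' : DKer F D) : DKer F D where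
  κ := fun d d' => K.κ d d' + K'.κ d d'
  smul := fun g d d' => by rw [K.smul, K'.smul]
  finite := fun d => ((K.finite d).union (K'.finite d)).subset fun d' hd' => by
    by_contra h
    rw [Set.mem_union, not_or] at h
    exact hd' (by
      rw [not_not.mp h.1, not_not.mp h.2, add_zero])

/-- scalar multiples -/
noncomputable def cmul (c : ℂ) (K : DKer F D) : DKer F D where
  κ := fun d d' => c * K.κ d d'
  smul := fun g d d' => by rw [K.smul]
  finite := fun d => (K.finite d).subset fun d' hd' h => hd' (by rw [h, mul_zero])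

/-- composition -/
noncomputable def comp (K K' : DKer F D) : DKer F D where
  κ := fun d d'' => ∑ᶠ d', K.κ d d' * K'.κ d' d''
  smul := fun g d d'' => by
    rw [← finsum_comp_equiv (MulAction.toPerm g)]
    refine finsum_congr fun d' => ?_
    rw [MulAction.toPerm_apply, K.smul, K'.smul]
  finite := fun d => by
    refine ((K.finite d).biUnion fun d' _ => K'.finite d').subset fun d'' h => ?_
    by_contra hcon
    apply h
    refine finsum_eq_zero_of_forall_eq_zero fun d' => ?_
    by_cases h1 : K.κ d d' = 0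
    · rw [h1, zero_mul]
    · by_cases h2 : K'.κ d' d'' = 0
      · rw [h2, mul_zero]
      · exact absurd (Set.mem_biUnion h1 h2) hcon

theorem comp_κ (K K' : DKer F D) (d d'' : D) :
    (K.comp K').κ d d'' = ∑ᶠ d', K.κ d d' * K'.κ d' d'' := rfl

theorem comp_κ_sum (K K' : DKer F D) (d d'' : D) :
    (K.comp K').κ d d'' = ∑ d' ∈ (K.finite d).toFinset, K.κ d d' * K'.κ d' d'' := by
  rw [comp_κ]
  refine finsum_eq_sum_of_support_subset _ fun d' h => ?_
  rw [Set.Finite.coe_toFinset]
  exact fun h1 => h (by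
    show K.κ d d' * _ = 0
    rw [h1, zero_mul])

variable [FinPart F D] [IsTotallyComplex F]

/-- columns are finite -/
theorem finite_col (K : DKer F D) (d' : D) : {d | K.κ d d' ≠ 0}.Finite := by
  classical
  obtain ⟨D₀, hD₀⟩ := FinPart.exists_reps (F := F) (D := D)
  have h1 : ∀ d₀ : D, {e | ∃ g : GL (Fin 2) F, (∃ d ∈ (K.finite d₀).toFinset, g • d ∈ ({d'} : Finset D)) ∧
      g • d₀ = e}.Finite := fun d₀ => finite_transport _ _ _
  refine (D₀.finite_toSet.biUnion fun d₀ _ => h1 d₀).subset fun d hd => ?_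
  obtain ⟨g, hg⟩ := hD₀ d
  refine Set.mem_biUnion hg ⟨g⁻¹, ⟨g • d', ?_, ?_⟩, inv_smul_smul g d⟩
  · rw [Set.Finite.mem_toFinset]
    change K.κ (g • d) (g • d') ≠ 0
    rwa [K.smul]
  · rw [inv_smul_smul, Finset.mem_singleton]

/-- the adjoint kernel -/
noncomputable def adj (K : DKer F D) : DKer F D where
  κ := fun d d' => conj (K.κ d' d)
  smul := fun g d d' => by rw [K.smul]
  finite := fun d => (K.finite_col d).subset fun d' hd' h => hd' (by rw [h, map_zero])

omit [IsTotallyComplex F] in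
/-- rows have uniformly bounded sums -/
theorem exists_row_bound (K : DKer F D) : ∃ C : ℝ, 0 ≤ C ∧
    ∀ d, ∑ᶠ d', ‖K.κ d d'‖ ≤ C := by
  classical
  obtain ⟨D₀, hD₀⟩ := FinPart.exists_reps (F := F) (D := D)
  have h0 : ∀ d, 0 ≤ ∑ᶠ d', ‖K.κ d d'‖ := fun d => finsum_nonneg fun _ => norm_nonneg _
  refine ⟨∑ d ∈ D₀, ∑ᶠ d', ‖K.κ d d'‖, Finset.sum_nonneg fun d _ => h0 d, fun d => ?_⟩
  obtain ⟨g, hg⟩ := hD₀ d
  have e : ∑ᶠ d', ‖K.κ d d'‖ = ∑ᶠ d', ‖K.κ (g • d) d'‖ := by
    refine (finsum_congr fun d' => ?_).trans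
      (finsum_comp_equiv (MulAction.toPerm g) (f := fun d' => ‖K.κ (g • d) d'‖))
    rw [MulAction.toPerm_apply, K.smul]
  rw [e]
  exact Finset.single_le_sum (f := fun d => ∑ᶠ d', ‖K.κ d d'‖) (fun d _ => h0 d) hg

omit [IsTotallyComplex F] in
/-- the number of nonzero entries of the rows is bounded -/
theorem exists_card_bound (K : DKer F D) : ∃ C : ℕ, ∀ d, {d' | K.κ d d' ≠ 0}.ncard ≤ C := by
  classical
  obtain ⟨D₀, hD₀⟩ := FinPart.exists_reps (F := F) (D := D)
  refine ⟨∑ d ∈ D₀, {d' | K.κ d d' ≠ 0}.ncard, fun d => ?_⟩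
  obtain ⟨g, hg⟩ := hD₀ d
  have e : {d' | K.κ d d' ≠ 0}.ncard = {d' | K.κ (g • d) d' ≠ 0}.ncard := by
    have : {d' | K.κ (g • d) d' ≠ 0} = (fun x => g • x) '' {d' | K.κ d d' ≠ 0} := by
      ext d'
      constructor
      · intro h
        refine ⟨g⁻¹ • d', ?_, smul_inv_smul g d'⟩
        change K.κ d (g⁻¹ • d') ≠ 0
        rwa [← K.smul' g]
      · rintro ⟨x, hx, rfl⟩
        change K.κ (g • d) (g • x) ≠ 0
        rwa [K.smul]
    rw [this, Set.ncard_image_of_injective _ (MulAction.injective g)]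
  rw [e]
  exact Finset.single_le_sum (f := fun d => {d' | K.κ d d' ≠ 0}.ncard) (fun d _ => Nat.zero_le _) hg

end DKer

end Fermat.Agent.LT.Sp
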