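import Fermat.Agent.LT.Sp.Supp
import Fermat.Agent.LT.Tw.Class

set_option autoImplicit false

/-!
# Only elliptic classes contribute to a kernel with hyperbolic finite part
-/

namespace Fermat.Agent.LT.Tw

open Matrix
open scoped MatrixGroups

section Borel

variable {F : Type*} [Field F]

/-- a matrix with an eigenvalue is conjugate to an upper triangular matrix -/
theorem exists_upper {γ : GL (Fin 2) F} (h : ¬ Ell (γ : Matrix (Fin 2) (Fin 2) F)) :
    ∃ P : GL (Fin 2) F, (P * γ * P⁻¹ : GL (Fin 2) F) 1 0 = 0 := by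
  rw [ell_iff] at h
  push Not at h
  obtain ⟨x, hx⟩ := h
  rw [Matrix.trace_fin_two, Matrix.det_fin_two] at hx
  by_cases hc : γ 1 0 = 0
  · exact ⟨1, by rw [one_mul, inv_one, mul_one, hc]⟩
  set a := γ 0 0 with ha
  set b := γ 0 1 with hb
  set c := γ 1 0 with hcdef
  set d := γ 1 1 with hd
  let Q : GL (Fin 2) F :=
    { val := !![0, c⁻¹; 1, -((x - d) * c⁻¹)]
      inv := !![x - d, 1; c, 0]
      val_inv := by
        ext i j
        fin_cases i <;> fin_cases j <;> simp [Matrix.mul_apply, Fin.sum_univ_two, hc]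
      inv_val := by
        ext i j
        fin_cases i <;> fin_cases j <;> simp [Matrix.mul_apply, Fin.sum_univ_two, hc]}
  refine ⟨Q, ?_⟩
  have e : (Q * γ * Q⁻¹ : GL (Fin 2) F) 1 0 =
      (1 * a + -((x - d) * c⁻¹) * c) * (x - d) + (1 * b + -((x - d) * c⁻¹) * d) * c := by
    show ((Q * γ * Q⁻¹ : GL (Fin 2) F) : Matrix (Fin 2) (Fin 2) F) 1 0 = _
    rw [Units.val_mul, Units.val_mul, Matrix.mul_apply, Fin.sum_univ_two, Matrix.mul_apply,
      Matrix.mul_apply, Fin.sum_univ_two, Fin.sum_univ_two]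
    rfl
  rw [e]
  have h1 : c⁻¹ * c = 1 := inv_mul_cancel₀ hc
  linear_combination (-(x - d) * (x - d) - (x - d) * d) * h1 - hx

end Borel

variable {k E : Type*} [Field k] [Field E] [Algebra k E] {σ : E ≃ₐ[k] E}

/-- an element with nonscalar, nonelliptic norm is twisted conjugate to an upper triangular
matrix -/
theorem exists_tw_borel (h : Cyc3 σ) {t : GL (Fin 2) E}
    (hns : NS (nm σ t : Matrix (Fin 2) (Fin 2) E))
    (hne : ¬ Ell (nm σ t : Matrix (Fin 2) (Fin 2) E)) :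
    ∃ A : GL (Fin 2) E, (A * t * (sg σ A)⁻¹ : GL (Fin 2) E) 1 0 = 0 := by
  obtain ⟨y, γ, hy⟩ := exists_torus σ h t hns
  have hyc := nm_conj σ h y t
  rw [hy] at hyc
  have hγne : ¬ Ell (γ : Matrix (Fin 2) (Fin 2) k) := by
    intro hγ
    apply hne
    have h1 := ell_bc σ h hγ
    rw [hyc, ell_iff, trace_conj, det_conj, ← ell_iff] at h1
    exact h1
  obtain ⟨P, hP⟩ := exists_upper hγne
  refine ⟨bc P * y, ?_⟩
  set t' : GL (Fin 2) E := bc P * y * t * (sg σ (bc P * y))⁻¹ with ht'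
  have e1 : nm σ t' = bc (P * γ * P⁻¹) := by
    rw [ht', nm_conj σ h, map_mul, map_mul, map_inv, hyc]
    group
  have hns' : NS (bc (E := E) (P * γ * P⁻¹) : Matrix (Fin 2) (Fin 2) E) := by
    rw [← e1, ht', nm_conj σ h]
    exact ns_conj hns _
  have hcomm := comm_of_nm σ h e1
  have hcm : (bc (E := E) (P * γ * P⁻¹) : Matrix (Fin 2) (Fin 2) E) *
      (t' : Matrix (Fin 2) (Fin 2) E) =
      (t' : Matrix (Fin 2) (Fin 2) E) * (bc (E := E) (P * γ * P⁻¹) : Matrix (Fin 2) (Fin 2) E) := by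
    rw [← Units.val_mul, ← Units.val_mul, hcomm]
  obtain ⟨a, b, hab⟩ := commutant hns' hcm
  have e2 : t' 1 0 = (a • (1 : Matrix (Fin 2) (Fin 2) E) +
      b • (bc (E := E) (P * γ * P⁻¹) : Matrix (Fin 2) (Fin 2) E)) 1 0 := by rw [← hab]
  rw [e2]
  have e3 : (bc (E := E) (P * γ * P⁻¹) : Matrix (Fin 2) (Fin 2) E) 1 0 = 0 := by
    rw [bc_apply, hP, map_zero]
  rw [Matrix.add_apply, Matrix.smul_apply, Matrix.smul_apply, e3, Matrix.one_apply_ne (by decide),
    smul_zero, smul_zero, add_zero]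

end Fermat.Agent.LT.Tw

namespace Fermat.Agent.LT.Sp

open NumberField NumberField.InfinitePlace Matrix
open Fermat.Agent.LT
open scoped MatrixGroups

section

variable {F : Type*} [Field F] [NumberField F] [IsTotallyComplex F]
  {D : Type*} [MulAction (GL (Fin 2) F) D]

/-- **an upper triangular element does not contribute** -/
theorem not_near_of_borel {T : Twist F D} {κ : D → D → Prop} {R' : ℝ}
    (hyp : HypSupp T κ ((2 * R') ^ (2 * rF F))) {g : GL (Fin 2) F} (hg : g 1 0 = 0)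
    {y : HF F × D} (hcd : ∀ w, H3.cd (y.1 w) ((g • T.act y).1 w) ≤ R') :
    ¬ κ y.2 (g • T.act y).2 := by
  intro hκ
  have hprod : ∏ w, (thetaHF T.θ y.1 w).y = ∏ w, (y.1 w).y := by
    simp_rw [thetaHF_y]
    exact Equiv.prod_comp (permPl T.θ) fun w => (y.1 w).y
  exact hyp y.2 g hg hκ (norm_bdd_of_near hg hprod hcd)

/-- an element twisted conjugate to an upper triangular one does not contribute -/
theorem not_near_of_conj {T : Twist F D} {κ : D → D → Prop}
    (hκ : ∀ (g : GL (Fin 2) F) d d', κ d d' → κ (g • d) (g • d')) {R' : ℝ}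
    (hyp : HypSupp T κ ((2 * R') ^ (2 * rF F))) {t A : GL (Fin 2) F}
    (hA : (A * t * (T.gm A)⁻¹ : GL (Fin 2) F) 1 0 = 0)
    {y : HF F × D} (hcd : ∀ w, H3.cd (y.1 w) ((t • T.act y).1 w) ≤ R') :
    ¬ κ y.2 (t • T.act y).2 := by
  intro h
  have e : (A * t * (T.gm A)⁻¹) • T.act (A • y) = A • t • T.act y := by
    rw [T.act_smul, smul_smul, inv_mul_cancel_right, mul_smul]
  refine not_near_of_borel hyp hA (y := A • y) ?_ ?_
  · intro w
    rw [e]
    show H3.cd ((A • y.1) w) ((A • (t • T.act y).1) w) ≤ R'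
    rw [smul_HF_apply, smul_HF_apply, H3.cd_smul]
    exact hcd w
  · rw [e]
    exact hκ A _ _ h

/-- **(Hk)** only elliptic elements contribute -/
theorem ell_of_near {T : Twist F D} (hθ : ∀ a, T.θ a = a) {κ : D → D → Prop}
    (hκ : ∀ (g : GL (Fin 2) F) d d', κ d d' → κ (g • d) (g • d')) {R' : ℝ}
    (hyp : HypSupp T κ ((2 * R') ^ (2 * rF F))) {γ : GL (Fin 2) F}
    {y : HF F × D} (hcd : ∀ w, H3.cd (y.1 w) ((γ • T.act y).1 w) ≤ R')
    (hκy : κ y.2 (γ • T.act y).2) : Tw.Ell (γ : Matrix (Fin 2) (Fin 2) F) := by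
  by_contra hne
  obtain ⟨P, hP⟩ := Tw.exists_upper hne
  have hgm : T.gm P = P := by
    ext i j
    exact hθ _
  exact not_near_of_conj hκ hyp (A := P) (by rw [hgm]; exact hP) hcd hκy

end

section

variable {k E : Type*} [Field k] [Field E] [NumberField E] [IsTotallyComplex E] [Algebra k E]
  {σ : E ≃ₐ[k] E} {D : Type*} [MulAction (GL (Fin 2) E) D]

/-- **(HE)** only elements with elliptic (or scalar) norm contribute -/
theorem ell_nm_of_near (h : Tw.Cyc3 σ) {T : Twist E D} (hθ : ∀ a, T.θ a = σ a)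
    {κ : D → D → Prop} (hκ : ∀ (g : GL (Fin 2) E) d d', κ d d' → κ (g • d) (g • d')) {R' : ℝ}
    (hyp : HypSupp T κ ((2 * R') ^ (2 * rF E))) {t : GL (Fin 2) E}
    (hns : Tw.NS (Tw.nm σ t : Matrix (Fin 2) (Fin 2) E))
    {y : HF E × D} (hcd : ∀ w, H3.cd (y.1 w) ((t • T.act y).1 w) ≤ R')
    (hκy : κ y.2 (t • T.act y).2) : Tw.Ell (Tw.nm σ t : Matrix (Fin 2) (Fin 2) E) := by
  by_contra hne
  obtain ⟨A, hA⟩ := Tw.exists_tw_borel h hns hne
  have hgm : T.gm A = Tw.sg σ A := by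
    ext i j
    exact hθ _
  exact not_near_of_conj hκ hyp (A := A) (by rw [hgm]; exact hA) hcd hκy

end

end Fermat.Agent.LT.Sp
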