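import Fermat.Agent.LT.Sp.Cover
import Fermat.Agent.LT.Sp.Theta

set_option autoImplicit false

/-!
# Support of twisted orbital kernels with hyperbolic finite part

If the finite part of a kernel is hyperbolic on the Borel subgroup (at an auxiliary place), then on
a Siegel domain only finitely many elements of `PGL₂(F)` contribute to `∑ k(y, γ θ y)`.
-/

namespace Fermat.Agent.LT.Sp

open NumberField NumberField.InfinitePlace Matrix MeasureTheory
open Fermat.Agent.LT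
open scoped MatrixGroups ENNReal NNReal

variable {F : Type*} [Field F] [NumberField F]

theorem borel_prod_y [IsTotallyComplex F] {g : GL (Fin 2) F} (hg : g 1 0 = 0) (p : HF F) :
    (∏ w, ((g • p) w).y) ^ 2 =
      ((|Algebra.norm ℚ (g 0 0 / g 1 1)| : ℚ) : ℝ) * (∏ w, (p w).y) ^ 2 := by
  classical
  have hd : g 1 1 ≠ 0 := by
    intro h
    apply g.det_ne_zero
    rw [Matrix.det_fin_two, hg, h]; ring
  have h1 : ∀ w, ((g • p) w).y = ‖w.embedding (g 0 0 / g 1 1)‖ * (p w).y := by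
    intro w
    have hdw : (0 : ℝ) < ‖w.embedding (g 1 1)‖ := by
      rw [norm_pos_iff, map_ne_zero]; exact hd
    rw [smul_HF_apply, H3.smul_y, det_embGL, embGL_apply, embGL_apply, hg, H3.den, map_zero,
      zero_mul, zero_add, norm_zero, Matrix.det_fin_two, hg, mul_zero, sub_zero, map_mul, norm_mul,
      map_div₀, norm_div]
    field_simp
    ring
  rw [Finset.prod_congr rfl fun w _ => h1 w, Finset.prod_mul_distrib, mul_pow, ← prod_sq_eq_norm,
    Finset.prod_pow]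

/-- an element of the Borel subgroup moving `p'` near a point of the same total height has
multiplier of bounded norm -/
theorem norm_bdd_of_near [IsTotallyComplex F] {g : GL (Fin 2) F} (hg : g 1 0 = 0) {p p' : HF F}
    {R' : ℝ} (hp : ∏ w, (p' w).y = ∏ w, (p w).y) (hcd : ∀ w, H3.cd (p w) ((g • p') w) ≤ R') :
    ((|Algebra.norm ℚ (g 0 0 / g 1 1)| : ℚ) : ℝ) ≤ (2 * R') ^ (2 * rF F) ∧
      1 ≤ (2 * R') ^ (2 * rF F) * ((|Algebra.norm ℚ (g 0 0 / g 1 1)| : ℚ) : ℝ) := by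
  classical
  have hR'1 : 1 ≤ R' := by
    obtain ⟨w⟩ : Nonempty (InfinitePlace F) := inferInstance
    exact (H3.one_le_cd _ _).trans (hcd w)
  have hP : 0 < ∏ w, (p w).y := Finset.prod_pos fun w _ => (p w).pos
  have hG : 0 < ∏ w, ((g • p') w).y := Finset.prod_pos fun w _ => ((g • p') w).pos
  have h1 := borel_prod_y hg p'
  rw [hp] at h1
  have e1 : ∏ w, ((g • p') w).y ≤ (2 * R') ^ rF F * ∏ w, (p w).y := by
    calc ∏ w, ((g • p') w).y ≤ ∏ w : InfinitePlace F, (2 * R') * (p w).y := by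
          refine Finset.prod_le_prod (fun w _ => ((g • p') w).pos.le) fun w _ => ?_
          refine (H3.y_le (p w) ((g • p') w)).trans ?_
          have := (p w).pos
          have := hcd w
          gcongr
      _ = _ := by rw [Finset.prod_mul_distrib, Finset.prod_const, Finset.card_univ]
  have e2 : ∏ w, (p w).y ≤ (2 * R') ^ rF F * ∏ w, ((g • p') w).y := by
    calc ∏ w, (p w).y ≤ ∏ w : InfinitePlace F, (2 * R') * ((g • p') w).y := by
          refine Finset.prod_le_prod (fun w _ => (p w).pos.le) fun w _ => ?_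
          refine (H3.y_le ((g • p') w) (p w)).trans ?_
          have := ((g • p') w).pos
          have h5 : H3.cd ((g • p') w) (p w) ≤ R' := by rw [H3.cd_symm]; exact hcd w
          gcongr
      _ = _ := by rw [Finset.prod_mul_distrib, Finset.prod_const, Finset.card_univ]
  have hB : (0 : ℝ) < (2 * R') ^ rF F := by positivity
  set n : ℝ := ((|Algebra.norm ℚ (g 0 0 / g 1 1)| : ℚ) : ℝ) with hn
  set P := ∏ w, (p w).y with hPdef
  set G := ∏ w, ((g • p') w).y with hGdef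
  have hsq : (2 * R') ^ (2 * rF F) = ((2 * R') ^ rF F) ^ 2 := by rw [mul_comm 2 (rF F), pow_mul]
  rw [hsq]
  constructor
  · have h2 : G ^ 2 ≤ ((2 * R') ^ rF F * P) ^ 2 := by gcongr
    rw [h1, mul_pow] at h2
    exact le_of_mul_le_mul_right h2 (by positivity)
  · have h2 : P ^ 2 ≤ ((2 * R') ^ rF F * G) ^ 2 := by gcongr
    rw [mul_pow, h1, ← mul_assoc] at h2
    have h3 : 1 * P ^ 2 ≤ ((2 * R') ^ rF F) ^ 2 * n * P ^ 2 := by rw [one_mul]; exact h2
    exact le_of_mul_le_mul_right h3 (by positivity)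

omit [NumberField F] in
theorem cd_j_thetaHF (θ : F ≃+* F) (x : HF F) (w : InfinitePlace F) :
    H3.cd H3.j (thetaHF θ x w) = H3.cd H3.j (x (permPl θ w)) := by
  have hj : H3.cj H3.j = H3.j := by
    apply H3.ext
    · simp [H3.j]
    · rfl
  rw [thetaHF_apply, permPl_apply, pt]
  split_ifs
  · rfl
  · conv_lhs => rw [← hj, H3.cd_cj]

variable {D : Type*} [MulAction (GL (Fin 2) F) D]

/-- the relation `κ` on `D` is hyperbolic on the Borel subgroup, with bound `B` -/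
def HypSupp (T : Twist F D) (κ : D → D → Prop) (B : ℝ) : Prop :=
  ∀ (d : D) (g : GL (Fin 2) F), g 1 0 = 0 → κ d (g • T.dm d) →
    ¬ (((|Algebra.norm ℚ (g 0 0 / g 1 1)| : ℚ) : ℝ) ≤ B ∧
      1 ≤ B * ((|Algebra.norm ℚ (g 0 0 / g 1 1)| : ℚ) : ℝ))

variable [FinPart F D]

/-- **Support theorem.** -/
theorem exists_supp_finite [IsTotallyComplex F] (T : Twist F D) {R : ℝ} (hR : 1 ≤ R)
    (D₁ : Finset D) (R' : ℝ) (κ : D → D → Prop) (hrows : ∀ d ∈ D₁, {d' | κ d d'}.Finite)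
    (hyp : HypSupp T κ ((2 * R') ^ (2 * rF F))) :
    ∃ Φ : Set PGL(2, F), Φ.Finite ∧ ∀ y ∈ SS F R D₁, ∀ γ : PGL(2, F),
      (∀ w, H3.cd (y.1 w) ((γ • T.act y).1 w) ≤ R') → κ y.2 (γ • T.act y).2 → γ ∈ Φ := by
  classical
  have hfin : (⋃ d ∈ D₁, {d' | κ d d'}).Finite := D₁.finite_toSet.biUnion fun d hd => hrows d hd
  obtain ⟨N, hN0, hN⟩ := exists_bddDen_of_finset (F := F) (D₁.image T.dm) hfin.toFinset
  set T₀ : ℝ := (2 * R' * R * N ^ 2) ^ rF F * N with hT₀
  obtain ⟨C, hC⟩ := siegel_bdd F hR T₀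
  refine ⟨_, finite_PGL N (2 * (2 * C * R') * C), fun y hy γ hcd hκ => ?_⟩
  obtain ⟨hy1, hy2⟩ := hy
  induction γ using ProjGenLinGroup.induction_on with
  | mk g =>
  have hcd' : ∀ w, H3.cd (y.1 w) ((g • thetaHF T.θ y.1) w) ≤ R' := hcd
  have hbd : BddDen N g := by
    refine hN g ⟨T.dm y.2, Finset.mem_image_of_mem _ hy2, ?_⟩
    rw [Set.Finite.mem_toFinset]
    simp only [Set.mem_iUnion]
    exact ⟨y.2, hy2, hκ⟩
  have hprod : ∏ w, (thetaHF T.θ y.1 w).y = ∏ w, (y.1 w).y := by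
    simp_rw [thetaHF_y]
    exact Equiv.prod_comp (permPl T.θ) fun w => (y.1 w).y
  by_cases hlow : ∏ w, (y.1 w).y ≤ T₀
  · refine ⟨g, rfl, hbd, fun w => ?_⟩
    have h1 : H3.cd H3.j (thetaHF T.θ y.1 w) ≤ C := by
      rw [cd_j_thetaHF]
      exact hC _ hy1 hlow _
    have h2 : H3.cd H3.j ((g • thetaHF T.θ y.1) w) ≤ 2 * C * R' := by
      refine (H3.cd_triangle H3.j (y.1 w) _).trans ?_
      have h3 := hC _ hy1 hlow w
      have h4 := H3.one_le_cd H3.j (y.1 w)
      have h5 := H3.one_le_cd (y.1 w) ((g • thetaHF T.θ y.1) w)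
      have h6 := hcd' w
      have h7 : 0 ≤ 2 * C := by linarith
      gcongr
    exact cd_j_smul_le g _ w h1 h2
  · exfalso
    push Not at hlow
    have hlb : ∀ w, R⁻¹ ≤ (thetaHF T.θ y.1 w).y := by
      intro w
      rw [thetaHF_y]
      exact (hy1 _).2.1
    have hg10 := two_cusp hbd hR hlb hcd' hlow
    exact hyp y.2 g hg10 hκ (norm_bdd_of_near hg10 hprod hcd')

/-- **The orbital sums of a kernel with hyperbolic finite part are bounded on Siegel domains.** -/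
theorem exists_supp_bound [IsTotallyComplex F] (T : Twist F D) {R : ℝ} (hR : 1 ≤ R)
    (D₁ : Finset D) (R' : ℝ) (κ : D → D → Prop) (hrows : ∀ d ∈ D₁, {d' | κ d d'}.Finite)
    (hyp : HypSupp T κ ((2 * R') ^ (2 * rF F)))
    (k : HF F × D → HF F × D → ℝ≥0∞) (M : ℝ≥0)
    (hk : ∀ y y', k y y' ≤ M) (hk0 : ∀ y y', k y y' ≠ 0 → (∀ w, H3.cd (y.1 w) (y'.1 w) ≤ R') ∧
      κ y.2 y'.2) :
    ∃ C : ℝ≥0, ∀ y ∈ SS F R D₁, ∑' γ : PGL(2, F), k y (γ • T.act y) ≤ C := by
  classical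
  obtain ⟨Φ, hΦ, h⟩ := exists_supp_finite T hR D₁ R' κ hrows hyp
  refine ⟨hΦ.toFinset.card * M, fun y hy => ?_⟩
  have h1 : ∑' γ : PGL(2, F), k y (γ • T.act y) = ∑ γ ∈ hΦ.toFinset, k y (γ • T.act y) := by
    refine tsum_eq_sum fun γ hγ => ?_
    by_contra hne
    obtain ⟨h2, h3⟩ := hk0 _ _ hne
    exact hγ (hΦ.mem_toFinset.mpr (h y hy γ h2 h3))
  rw [h1]
  calc ∑ γ ∈ hΦ.toFinset, k y (γ • T.act y) ≤ ∑ _γ ∈ hΦ.toFinset, (M : ℝ≥0∞) :=
        Finset.sum_le_sum fun γ _ => hk _ _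
    _ = _ := by
        rw [Finset.sum_const, nsmul_eq_mul]
        push_cast
        rfl

end Fermat.Agent.LT.Sp
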