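import Fermat.Agent.LT.Sp.Supp

set_option autoImplicit false

/-!
# Absolute convergence of the geometric side
-/

namespace Fermat.Agent.LT.Sp

open Matrix NumberField MeasureTheory Set
open scoped MatrixGroups ENNReal NNReal

variable {F : Type*} [Field F] [NumberField F] {D : Type*} [MulAction (GL (Fin 2) F) D]
  [FinPart F D] [MeasurableSpace D]

omit [FinPart F D] in
theorem Twist.measurable_act [DiscreteMeasurableSpace D] [Countable D] (T : Twist F D) : Measurable T.act := T.measurePreserving_act.measurable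

omit [MeasurableSpace D] in
/-- measurability of the terms -/
theorem measurable_twisted [MeasurableSpace D] [DiscreteMeasurableSpace D] [Countable D] {E : Type*} [MeasurableSpace E] (T : Twist F D)
    {k : HF F × D → HF F × D → E} (hk : Measurable (Function.uncurry k)) (γ : PGL(2, F)) :
    Measurable fun y => k y (γ • T.act y) :=
  hk.comp (measurable_id.prodMk (T.measurable_act.const_smul γ))

/-- **Absolute convergence**, as an integral of a sum. -/
theorem lintegral_tsum_lt_top [IsTotallyComplex F] (T : Twist F D) {R : ℝ} (hR : 1 ≤ R)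
    (D₁ : Finset D) (R' : ℝ) (κ : D → D → Prop) (hrows : ∀ d ∈ D₁, {d' | κ d d'}.Finite)
    (hyp : HypSupp T κ ((2 * R') ^ (2 * rF F)))
    {k : HF F × D → HF F × D → ℂ} (M : ℝ)
    (hk : ∀ y y', ‖k y y'‖ ≤ M) (hk0 : ∀ y y', k y y' ≠ 0 → (∀ w, H3.cd (y.1 w) (y'.1 w) ≤ R') ∧
      κ y.2 y'.2) {w : HF F × D → ℝ≥0} (hw : Measurable w) (hw0 : ∀ y, y ∉ SS F R D₁ → w y = 0)
    (hfin : FA.wtM (muY F D) w univ < ∞) :
    ∫⁻ y, ∑' γ : PGL(2, F), ‖k y (γ • T.act y)‖ₑ ∂(FA.wtM (muY F D) w) < ∞ := by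
  obtain ⟨C, hC⟩ := exists_supp_bound T hR D₁ R' κ hrows hyp (fun y y' => ‖k y y'‖ₑ)
    (Real.toNNReal M) (fun y y' => by
      rw [← ofReal_norm]
      exact ENNReal.ofReal_le_ofReal (hk y y')) (fun y y' h => hk0 y y' (by
      simpa using h))
  have hae : ∀ᵐ y ∂(FA.wtM (muY F D) w), y ∈ SS F R D₁ := by
    rw [FA.wtM, ae_withDensity_iff hw.coe_nnreal_ennreal]
    refine Filter.Eventually.of_forall fun y hy => ?_
    by_contra hcon
    exact hy (by rw [hw0 y hcon]; rfl)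
  calc ∫⁻ y, ∑' γ : PGL(2, F), ‖k y (γ • T.act y)‖ₑ ∂(FA.wtM (muY F D) w)
      ≤ ∫⁻ _y, (C : ℝ≥0∞) ∂(FA.wtM (muY F D) w) := by
        refine lintegral_mono_ae ?_
        filter_upwards [hae] with y hy using hC y hy
    _ = C * FA.wtM (muY F D) w univ := lintegral_const _
    _ < ∞ := ENNReal.mul_lt_top ENNReal.coe_lt_top hfin

/-- **Absolute convergence**, as a sum of integrals. -/
theorem tsum_lintegral_lt_top [IsTotallyComplex F] [DiscreteMeasurableSpace D] [Countable D]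
    (T : Twist F D) {R : ℝ} (hR : 1 ≤ R)
    (D₁ : Finset D) (R' : ℝ) (κ : D → D → Prop) (hrows : ∀ d ∈ D₁, {d' | κ d d'}.Finite)
    (hyp : HypSupp T κ ((2 * R') ^ (2 * rF F)))
    {k : HF F × D → HF F × D → ℂ} (hkm : Measurable (Function.uncurry k)) (M : ℝ)
    (hk : ∀ y y', ‖k y y'‖ ≤ M) (hk0 : ∀ y y', k y y' ≠ 0 → (∀ w, H3.cd (y.1 w) (y'.1 w) ≤ R') ∧
      κ y.2 y'.2) {w : HF F × D → ℝ≥0} (hw : Measurable w) (hw0 : ∀ y, y ∉ SS F R D₁ → w y = 0)
    (hfin : FA.wtM (muY F D) w univ < ∞) :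
    ∑' γ : PGL(2, F), ∫⁻ y, ‖k y (γ • T.act y)‖ₑ ∂(FA.wtM (muY F D) w) < ∞ := by
  rw [← lintegral_tsum fun γ => (measurable_twisted T hkm γ).enorm.aemeasurable]
  exact lintegral_tsum_lt_top T hR D₁ R' κ hrows hyp M hk hk0 hw hw0 hfin

end Fermat.Agent.LT.Sp
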