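import Fermat.Agent.LT.Sp.Den

set_option autoImplicit false

/-!
# Finiteness modulo scalars of elements with bounded denominators and bounded displacement
-/

namespace Fermat.Agent.LT.Sp

open NumberField NumberField.InfinitePlace Matrix
open Fermat.Agent.LT

variable {F : Type*} [Field F] [NumberField F]

omit [NumberField F] in
theorem norm_entry_sq_le (g : GL (Fin 2) ℂ) (i k : Fin 2) :
    ‖g i k‖ ^ 2 ≤ 2 * H3.cd H3.j (g • H3.j) * ‖(g : Matrix (Fin 2) (Fin 2) ℂ).det‖ := by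
  have hdet : 0 < ‖(g : Matrix (Fin 2) (Fin 2) ℂ).det‖ := norm_pos_iff.mpr g.det_ne_zero
  have hq : ∀ a b : ℂ, H3.j.q a b = ‖a‖ ^ 2 + ‖b‖ ^ 2 := by
    intro a b
    simp [H3.q, H3.den, H3.j, add_comm]
  have h1 : 2 * H3.cd H3.j (g • H3.j) * ‖(g : Matrix (Fin 2) (Fin 2) ℂ).det‖ =
      ‖g 0 0‖ ^ 2 + ‖g 0 1‖ ^ 2 + ‖g 1 0‖ ^ 2 + ‖g 1 1‖ ^ 2 := by
    rw [H3.two_cd, H3.q_smul_eq, H3.q_smul_eq, hq, hq, hq, hq]
    simp only [H3.j, zero_mul, zero_add, one_mul, add_zero, norm_one, norm_zero, one_pow,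
      Complex.zero_re, mul_zero, zero_div, sub_zero, ne_eq, OfNat.ofNat_ne_zero, not_false_eq_true,
      zero_pow]
    field_simp
    ring
  rw [h1]
  have a00 := sq_nonneg ‖g 0 0‖
  have a01 := sq_nonneg ‖g 0 1‖
  have a10 := sq_nonneg ‖g 1 0‖
  have a11 := sq_nonneg ‖g 1 1‖
  fin_cases i <;> fin_cases k <;> simp only [Fin.zero_eta, Fin.mk_one] <;> linarith

/-- matrices with bounded denominators and bounded absolute values are finite in number -/
theorem finite_bdd_matrix [IsTotallyComplex F] (N : ℕ) (hN : N ≠ 0) (B : ℝ) :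
    {h : Matrix (Fin 2) (Fin 2) F | (∀ i j, IsIntegral ℤ ((N : F) * h i j)) ∧
      ∀ (w : InfinitePlace F) i j, ‖w.embedding (h i j)‖ ≤ B}.Finite := by
  have h1 := Embeddings.finite_of_norm_le F ℂ (N * B)
  have h2 : (Set.univ.pi fun _ : Fin 2 => Set.univ.pi fun _ : Fin 2 =>
      {x : F | IsIntegral ℤ x ∧ ∀ φ : F →+* ℂ, ‖φ x‖ ≤ N * B}).Finite :=
    Set.Finite.pi fun _ => Set.Finite.pi fun _ => h1
  have hN' : (N : F) ≠ 0 := by exact_mod_cast hN
  refine (h2.preimage (f := fun h : Matrix (Fin 2) (Fin 2) F => fun i j => (N : F) * h i j) ?_).subset ?_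
  · intro h _ h' _ e
    ext i j
    have := congrFun (congrFun e i) j
    exact mul_left_cancel₀ hN' this
  · rintro h ⟨ha, hb⟩
    simp only [Set.mem_preimage, Set.mem_pi, Set.mem_univ, true_implies, Set.mem_ofPred_eq]
    intro i j
    refine ⟨ha i j, fun φ => ?_⟩
    rw [map_mul, norm_mul, map_natCast, Complex.norm_natCast]
    have h3 : ‖φ (h i j)‖ ≤ B := by
      have h4 := hb (InfinitePlace.mk φ) i j
      rw [norm_embedding_eq] at h4
      exact h4
    gcongr

/-- **Proper discontinuity**: up to scalars there are only finitely many elements with bounded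
denominators which move the base point by a bounded distance. -/
theorem finite_of_bddDen [IsTotallyComplex F] (N : ℕ) (C : ℝ) :
    ∃ Φ : Set (Matrix (Fin 2) (Fin 2) F), Φ.Finite ∧ ∀ g : GL (Fin 2) F, BddDen N g →
      (∀ w : InfinitePlace F, H3.cd H3.j (embGL w g • H3.j) ≤ C) →
      ∃ a : F, a ≠ 0 ∧ a • (g : Matrix (Fin 2) (Fin 2) F) ∈ Φ := by
  classical
  by_cases hN : N = 0
  · subst hN
    exact ⟨∅, Set.finite_empty, fun g hg => absurd rfl hg.ne_zero⟩
  obtain ⟨R₁, hR₁, hbal⟩ := exists_unit_balance F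
  set r := Fintype.card (InfinitePlace F) with hr
  have hr0 : r ≠ 0 := Fintype.card_ne_zero
  set B : ℝ := 2 * |C| * (R₁ ^ r * N) + 1 with hB
  refine ⟨_, finite_bdd_matrix (F := F) N hN B, fun g hg hcd => ?_⟩
  obtain ⟨a, ha, h2, h3, h4⟩ := hg
  set D := (g : Matrix (Fin 2) (Fin 2) F).det with hD
  have hD0 : D ≠ 0 := g.det_ne_zero
  have haD : a ^ 2 * D ≠ 0 := mul_ne_zero (pow_ne_zero _ ha) hD0
  have hN1 : (1 : ℝ) ≤ N := by exact_mod_cast Nat.one_le_iff_ne_zero.mpr hN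
  obtain ⟨u, hu⟩ := hbal (fun w => ‖w.embedding (a ^ 2 * D)‖) (fun w => norm_pos_iff.mpr (by
    rwa [ne_eq, map_eq_zero]))
  set v : F := ((u : 𝓞 F) : F) with hv
  have hv0 : v ≠ 0 := RingOfIntegers.coe_ne_zero_iff.mpr (Units.ne_zero u)
  have hvint : IsIntegral ℤ v := RingOfIntegers.isIntegral_coe _
  set Y : InfinitePlace F → ℝ := fun w => ‖w.embedding ((v * a) ^ 2 * D)‖ with hY
  have hYeq : ∀ w, Y w = ‖w.embedding v‖ ^ 2 * ‖w.embedding (a ^ 2 * D)‖ := by
    intro w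
    simp only [hY]
    rw [show (v * a) ^ 2 * D = v ^ 2 * (a ^ 2 * D) by ring, map_mul, norm_mul, map_pow, norm_pow]
  have hYbal : ∀ w w', Y w ≤ R₁ * Y w' := by
    intro w w'
    rw [hYeq, hYeq]
    exact hu w w'
  have hY0 : ∀ w, 0 ≤ Y w := fun w => norm_nonneg _
  have hprod : ∏ w, Y w ≤ N := by
    have h5 : (∏ w, Y w) ^ 2 ≤ (N : ℝ) ^ 2 := by
      rw [← Finset.prod_pow]
      simp only [hY]
      rw [prod_sq_eq_norm]
      have hvn : |Algebra.norm ℚ v| = 1 := by
        have := (NumberField.isUnit_iff_norm (K := F) (x := (u : 𝓞 F))).mp u.isUnit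
        rw [← this]
        simp [hv, RingOfIntegers.coe_norm]
      rw [show (v * a) ^ 2 * D = v ^ 2 * (a ^ 2 * D) by ring, map_mul, map_pow, abs_mul, abs_pow,
        hvn, one_pow, one_mul]
      calc ((|Algebra.norm ℚ (a ^ 2 * D)| : ℚ) : ℝ) ≤ ((N : ℚ) : ℝ) := by exact_mod_cast h3
        _ = N := by simp
        _ ≤ (N : ℝ) ^ 2 := by nlinarith
    exact le_of_sq_le_sq h5 (by positivity)
  have hYle : ∀ w, Y w ≤ R₁ ^ r * N := by
    intro w
    by_contra hcon
    push Not at hcon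
    have h6 : (1 : ℝ) ≤ R₁ ^ r * N := one_le_mul_of_one_le_of_one_le (one_le_pow₀ hR₁) hN1
    have h7 : Y w ^ r ≤ R₁ ^ r * ∏ w', Y w' := by
      calc Y w ^ r = ∏ _w' : InfinitePlace F, Y w := by
            rw [Finset.prod_const, Finset.card_univ]
        _ ≤ ∏ w' : InfinitePlace F, (R₁ * Y w') :=
            Finset.prod_le_prod (fun _ _ => hY0 w) fun w' _ => hYbal w w'
        _ = R₁ ^ r * ∏ w', Y w' := by
            rw [Finset.prod_mul_distrib, Finset.prod_const, Finset.card_univ]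
    have h8 : Y w ≤ Y w ^ r := le_self_pow₀ (h6.trans hcon.le) hr0
    have h9 : R₁ ^ r * ∏ w', Y w' ≤ R₁ ^ r * N := by gcongr
    linarith
  refine ⟨v * a, mul_ne_zero hv0 ha, ?_, ?_⟩
  · intro i k
    have e : (N : F) * ((v * a) • (g : Matrix (Fin 2) (Fin 2) F)) i k =
        v * ((N : F) * (a * g i k)) := by
      rw [Matrix.smul_apply, smul_eq_mul]; ring
    rw [e]
    exact hvint.mul (h2 i k)
  · intro w i k
    have h5 := norm_entry_sq_le (embGL w g) i k
    rw [embGL_apply, det_embGL] at h5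
    have hCabs : H3.cd H3.j (embGL w g • H3.j) ≤ |C| := (hcd w).trans (le_abs_self C)
    have h6 : ‖w.embedding ((v * a) • (g : Matrix (Fin 2) (Fin 2) F) i k)‖ ^ 2 ≤
        2 * |C| * (R₁ ^ r * N) := by
      rw [smul_eq_mul, map_mul, norm_mul, mul_pow]
      calc ‖w.embedding (v * a)‖ ^ 2 * ‖w.embedding (g i k)‖ ^ 2 ≤
          ‖w.embedding (v * a)‖ ^ 2 * (2 * |C| * ‖w.embedding D‖) := by
            refine mul_le_mul_of_nonneg_left (h5.trans ?_) (by positivity)
            gcongr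
        _ = 2 * |C| * Y w := by
            simp only [hY]
            rw [map_mul w.embedding ((v * a) ^ 2), norm_mul, map_pow, norm_pow, map_mul, norm_mul]
            ring
        _ ≤ _ := by gcongr; exact hYle w
    have h7 : ‖w.embedding ((v * a) • (g : Matrix (Fin 2) (Fin 2) F) i k)‖ ^ 2 ≤ B ^ 2 := by
      refine h6.trans ?_
      have h8 : 0 ≤ 2 * |C| * (R₁ ^ r * N) := by positivity
      rw [hB]
      nlinarith
    exact le_of_sq_le_sq h7 (by positivity)

end Fermat.Agent.LT.Sp
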