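import Fermat.Agent.LT.Sp.Fin

set_option autoImplicit false

/-!
# Heights of translates; the orbit of a point meets a Siegel set finitely often
-/

namespace Fermat.Agent.LT.Sp

open NumberField NumberField.InfinitePlace Matrix
open Fermat.Agent.LT
open scoped MatrixGroups

variable {F : Type*} [Field F] [NumberField F]

theorem prod_sq_le_of_bdd [IsTotallyComplex F] {N : ℕ} {x : F} (hN : N ≠ 0)
    (h3 : |Algebra.norm ℚ x| ≤ N) : ∏ w : InfinitePlace F, ‖w.embedding x‖ ≤ N := by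
  have hN1 : (1 : ℝ) ≤ N := by exact_mod_cast Nat.one_le_iff_ne_zero.mpr hN
  have h5 : (∏ w : InfinitePlace F, ‖w.embedding x‖) ^ 2 ≤ (N : ℝ) ^ 2 := by
    rw [← Finset.prod_pow, prod_sq_eq_norm]
    calc ((|Algebra.norm ℚ x| : ℚ) : ℝ) ≤ ((N : ℚ) : ℝ) := by exact_mod_cast h3
      _ = N := by simp
      _ ≤ (N : ℝ) ^ 2 := by nlinarith
  exact le_of_sq_le_sq h5 (by positivity)

/-- the product of the heights of a translate is bounded -/
theorem prod_y_smul_le [IsTotallyComplex F] {N : ℕ} {g : GL (Fin 2) F} (hg : BddDen N g)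
    (p : HF F) : ∏ w, ((g • p) w).y ≤
      (N ^ 2) ^ rF F * N * max (∏ w, (p w).y) (∏ w, (p w).y)⁻¹ := by
  classical
  have hN := hg.ne_zero
  obtain ⟨a, ha, h2, h3, h4⟩ := hg
  have hN1 : (1 : ℝ) ≤ N := by exact_mod_cast Nat.one_le_iff_ne_zero.mpr hN
  set D := (g : Matrix (Fin 2) (Fin 2) F).det with hD
  have hdet : ∏ w : InfinitePlace F, ‖w.embedding (a ^ 2 * D)‖ ≤ N := prod_sq_le_of_bdd hN h3
  have hP : 0 < ∏ w, (p w).y := Finset.prod_pos fun w _ => (p w).pos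
  have hG : 0 < ∏ w, ((g • p) w).y := Finset.prod_pos fun w _ => ((g • p) w).pos
  by_cases hc : g 1 0 = 0
  · have hd : g 1 1 ≠ 0 := by
      intro h
      apply g.det_ne_zero
      rw [Matrix.det_fin_two, hc, h]; ring
    have hpt : ∀ w, ((g • p) w).y * ‖w.embedding (N * (a * g 1 1))‖ ^ 2 =
        (N ^ 2 * ‖w.embedding (a ^ 2 * D)‖) * (p w).y := by
      intro w
      have hdw : (0 : ℝ) < ‖w.embedding (g 1 1)‖ := by
        rw [norm_pos_iff, map_ne_zero]; exact hd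
      rw [smul_HF_apply, H3.smul_y, det_embGL, embGL_apply, embGL_apply, hc, H3.den, map_zero,
        zero_mul, zero_add, norm_zero, map_mul, map_mul, map_mul, map_pow, norm_mul, norm_mul,
        norm_mul, norm_pow, map_natCast, Complex.norm_natCast]
      field_simp
      ring
    have hprod : (∏ w, ((g • p) w).y) * ∏ w : InfinitePlace F, ‖w.embedding (N * (a * g 1 1))‖ ^ 2 =
        (N ^ 2) ^ rF F * (∏ w : InfinitePlace F, ‖w.embedding (a ^ 2 * D)‖) * ∏ w, (p w).y := by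
      rw [← Finset.prod_mul_distrib, Finset.prod_congr rfl fun w _ => hpt w,
        Finset.prod_mul_distrib, Finset.prod_mul_distrib, Finset.prod_const, Finset.card_univ]
    have hint : 1 ≤ ∏ w : InfinitePlace F, ‖w.embedding (N * (a * g 1 1))‖ ^ 2 :=
      one_le_prod_of_isIntegral (h2 1 1) (mul_ne_zero (by exact_mod_cast hN) (mul_ne_zero ha hd))
    calc ∏ w, ((g • p) w).y = (∏ w, ((g • p) w).y) * 1 := by ring
      _ ≤ (∏ w, ((g • p) w).y) * ∏ w : InfinitePlace F, ‖w.embedding (N * (a * g 1 1))‖ ^ 2 := by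
          gcongr
      _ = (N ^ 2) ^ rF F * (∏ w : InfinitePlace F, ‖w.embedding (a ^ 2 * D)‖) * ∏ w, (p w).y :=
          hprod
      _ ≤ (N ^ 2) ^ rF F * N * max (∏ w, (p w).y) (∏ w, (p w).y)⁻¹ := by
          gcongr
          exact le_max_left _ _
  · have hpt : ∀ w, ((g • p) w).y * (p w).y * ‖w.embedding (N * (a * g 1 0))‖ ^ 2 ≤
        N ^ 2 * ‖w.embedding (a ^ 2 * D)‖ := by
      intro w
      have e1 := y_smul_mul_y_le g p w
      have e5 : w.embedding (N * (a * g 1 0)) = N * (w.embedding a * w.embedding (g 1 0)) := by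
        rw [map_mul, map_mul, map_natCast]
      rw [e5, map_mul, map_pow, norm_mul, norm_mul, norm_mul, norm_pow, Complex.norm_natCast]
      calc ((g • p) w).y * (p w).y * (N * (‖w.embedding a‖ * ‖w.embedding (g 1 0)‖)) ^ 2
          = ((N : ℝ) ^ 2 * ‖w.embedding a‖ ^ 2) *
            (((g • p) w).y * (p w).y * ‖w.embedding (g 1 0)‖ ^ 2) := by ring
        _ ≤ ((N : ℝ) ^ 2 * ‖w.embedding a‖ ^ 2) * ‖w.embedding D‖ := by gcongr
        _ = _ := by ring
    have hprod : (∏ w, ((g • p) w).y) * (∏ w, (p w).y) *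
        ∏ w : InfinitePlace F, ‖w.embedding (N * (a * g 1 0))‖ ^ 2 ≤
        (N ^ 2) ^ rF F * ∏ w : InfinitePlace F, ‖w.embedding (a ^ 2 * D)‖ := by
      rw [← Finset.prod_mul_distrib, ← Finset.prod_mul_distrib]
      calc _ ≤ ∏ w : InfinitePlace F, (N ^ 2 * ‖w.embedding (a ^ 2 * D)‖) :=
            Finset.prod_le_prod (fun w _ => mul_nonneg (mul_nonneg ((g • p) w).pos.le
              (p w).pos.le) (by positivity)) fun w _ => hpt w
        _ = _ := by rw [Finset.prod_mul_distrib, Finset.prod_const, Finset.card_univ]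
    have hint : 1 ≤ ∏ w : InfinitePlace F, ‖w.embedding (N * (a * g 1 0))‖ ^ 2 :=
      one_le_prod_of_isIntegral (h2 1 0) (mul_ne_zero (by exact_mod_cast hN) (mul_ne_zero ha hc))
    have h6 : (∏ w, ((g • p) w).y) * (∏ w, (p w).y) ≤ (N ^ 2) ^ rF F * N := by
      calc (∏ w, ((g • p) w).y) * (∏ w, (p w).y) =
            (∏ w, ((g • p) w).y) * (∏ w, (p w).y) * 1 := by ring
        _ ≤ (∏ w, ((g • p) w).y) * (∏ w, (p w).y) *
            ∏ w : InfinitePlace F, ‖w.embedding (N * (a * g 1 0))‖ ^ 2 := by gcongr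
        _ ≤ (N ^ 2) ^ rF F * ∏ w : InfinitePlace F, ‖w.embedding (a ^ 2 * D)‖ := hprod
        _ ≤ _ := by gcongr
    calc ∏ w, ((g • p) w).y = ((∏ w, ((g • p) w).y) * (∏ w, (p w).y)) * (∏ w, (p w).y)⁻¹ := by
          field_simp
      _ ≤ ((N ^ 2) ^ rF F * N) * (∏ w, (p w).y)⁻¹ := by gcongr
      _ ≤ _ := by
          gcongr
          exact le_max_right _ _

omit [NumberField F] in
theorem cd_j_le {x : H3} {R B : ℝ} (hR : 1 ≤ R) (hz : ‖x.z‖ ≤ R) (hy : R⁻¹ ≤ x.y)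
    (hyB : x.y ≤ B) : H3.cd H3.j x ≤ (R ^ 2 + 1 + B ^ 2) * R := by
  have hpos := x.pos
  have hR0 : 0 < R := by linarith
  have hB : 0 ≤ B := hpos.le.trans hyB
  have h1 : 1 ≤ R * x.y := by rwa [inv_le_iff_one_le_mul₀' hR0] at hy
  rw [H3.cd]
  simp only [H3.j, zero_sub, norm_neg, one_pow, mul_one]
  rw [div_le_iff₀ (by positivity)]
  have h2 : ‖x.z‖ ^ 2 ≤ R ^ 2 := by gcongr
  have h3 : x.y ^ 2 ≤ B ^ 2 := by gcongr
  have h4 : 0 ≤ R ^ 2 + 1 + B ^ 2 := by positivity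
  nlinarith

/-- points of a Siegel set with bounded height are at bounded distance from the base point -/
theorem siegel_bdd (F : Type*) [Field F] [NumberField F] {R : ℝ} (hR : 1 ≤ R) (T : ℝ) : ∃ C : ℝ, ∀ x ∈ Siegel F R,
    ∏ w, (x w).y ≤ T → ∀ w, H3.cd H3.j (x w) ≤ C := by
  classical
  set r := rF F with hr
  have hr0 : r ≠ 0 := Fintype.card_ne_zero
  set B : ℝ := R ^ r * |T| + 1 with hB
  refine ⟨(R ^ 2 + 1 + B ^ 2) * R, fun x hx hT w => ?_⟩
  obtain ⟨h1, h2, h3⟩ := hx w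
  refine cd_j_le hR h1 h2 ?_
  by_contra hcon
  push Not at hcon
  have h5 : 0 ≤ R ^ r * |T| := by positivity
  have h6 : (1 : ℝ) ≤ (x w).y := by linarith
  have h7 : (x w).y ^ r ≤ R ^ r * ∏ w', (x w').y := by
    calc (x w).y ^ r = ∏ _w' : InfinitePlace F, (x w).y := by
          rw [Finset.prod_const, Finset.card_univ]
      _ ≤ ∏ w' : InfinitePlace F, (R * (x w').y) :=
          Finset.prod_le_prod (fun _ _ => (x w).pos.le) fun w' _ => h3 w'
      _ = R ^ r * ∏ w', (x w').y := by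
          rw [Finset.prod_mul_distrib, Finset.prod_const, Finset.card_univ]
  have h8 : (x w).y ≤ (x w).y ^ r := le_self_pow₀ h6 hr0
  have h9 : R ^ r * ∏ w', (x w').y ≤ R ^ r * |T| := by
    gcongr
    exact hT.trans (le_abs_self T)
  linarith

/-- **Finiteness, version for `PGL₂(F)`** -/
theorem finite_PGL [IsTotallyComplex F] (N : ℕ) (C : ℝ) :
    {γ : PGL(2, F) | ∃ g : GL (Fin 2) F, ProjGenLinGroup.mk g = γ ∧ BddDen N g ∧
      ∀ w : InfinitePlace F, H3.cd H3.j (embGL w g • H3.j) ≤ C}.Finite := by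
  classical
  obtain ⟨Φ, hΦ, h⟩ := finite_of_bddDen (F := F) N C
  refine (hΦ.image fun M : Matrix (Fin 2) (Fin 2) F => if hM : M.det ≠ 0 then
    ProjGenLinGroup.mk (GeneralLinearGroup.mkOfDetNeZero M hM) else 1).subset ?_
  rintro γ ⟨g, rfl, hg, hcd⟩
  obtain ⟨a, ha, hmem⟩ := h g hg hcd
  refine ⟨_, hmem, ?_⟩
  have hdet : (a • (g : Matrix (Fin 2) (Fin 2) F)).det ≠ 0 := by
    rw [Matrix.det_smul]
    exact mul_ne_zero (pow_ne_zero _ ha) g.det_ne_zero
  show (if hM : (a • (g : Matrix (Fin 2) (Fin 2) F)).det ≠ 0 then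
    ProjGenLinGroup.mk (GeneralLinearGroup.mkOfDetNeZero _ hM) else 1) = _
  rw [dif_pos hdet, ProjGenLinGroup.mk_eq_mk_iff]
  refine ⟨(Units.mk0 a ha)⁻¹, ?_⟩
  ext i k
  rw [Units.val_mul, GeneralLinearGroup.coe_scalar]
  simp only [GeneralLinearGroup.mkOfDetNeZero, Matrix.scalar_apply]
  rw [Matrix.mul_diagonal]
  show (a • (g : Matrix (Fin 2) (Fin 2) F)) i k * (((Units.mk0 a ha)⁻¹ : Fˣ) : F) = g i k
  rw [Matrix.smul_apply, smul_eq_mul, Units.val_inv_eq_inv_val, Units.val_mk0]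
  field_simp

/-- general form: `g` with bounded denominators moving a point at distance `≤ C` from `j` to a
point at distance `≤ C` -/
theorem cd_j_smul_le (g : GL (Fin 2) F) (p : HF F) (w : InfinitePlace F) {C C' : ℝ}
    (h1 : H3.cd H3.j (p w) ≤ C) (h2 : H3.cd H3.j ((g • p) w) ≤ C') :
    H3.cd H3.j (embGL w g • H3.j) ≤ 2 * C' * C := by
  refine (H3.cd_triangle H3.j ((g • p) w) (embGL w g • H3.j)).trans ?_
  rw [smul_HF_apply] at h2 ⊢
  rw [H3.cd_smul, H3.cd_symm (p w)]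
  have := H3.one_le_cd H3.j (p w)
  have := H3.one_le_cd H3.j (embGL w g • p w)
  have h0 : 0 ≤ 2 * C' := by linarith
  gcongr

/-- **The orbit of a point meets a Siegel set finitely often.** -/
theorem finite_smul_mem_siegel [IsTotallyComplex F] (N : ℕ) {R : ℝ} (hR : 1 ≤ R) (p : HF F) :
    {γ : PGL(2, F) | ∃ g : GL (Fin 2) F, ProjGenLinGroup.mk g = γ ∧ BddDen N g ∧
      g • p ∈ Siegel F R}.Finite := by
  classical
  obtain ⟨C', hC'⟩ := siegel_bdd F hR
    ((N ^ 2) ^ rF F * N * max (∏ w, (p w).y) (∏ w, (p w).y)⁻¹)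
  refine (finite_PGL N (2 * C' * (∑ w, H3.cd H3.j (p w)))).subset ?_
  rintro γ ⟨g, rfl, hg, hmem⟩
  refine ⟨g, rfl, hg, fun w => ?_⟩
  refine cd_j_smul_le g p w ?_ (hC' _ hmem (prod_y_smul_le hg p) w)
  exact Finset.single_le_sum (f := fun w => H3.cd H3.j (p w))
    (fun w _ => zero_le_one.trans (H3.one_le_cd _ _)) (Finset.mem_univ w)

end Fermat.Agent.LT.Sp
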